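/-
S29 [DICT]: the dictionary "places of the function field of `X₀(N)` over `ℂ` ↔ points of `ℍ`
and cusps".  Owner: helper22.

This directory re-runs the `Q̄`-hard-wired files of the analytic package of S24
(`Fermat/Agent/S24/*`, imported read-only) with the constant field `ℂ` in place of `Q̄`:
inside the namespace `Fermat.Agent.S29.DictC` the names `QBar`, `FunField`, `iota`, `ringA`,
`IsBridge`, ... denote the objects over `ℂ` (they shadow the ones of `Fermat.Agent.S24`);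
all field-independent notions (`ordAt`, `translate`, `ModerateGrowth`, `IsCuspOrd`, `XN`,
`IsCoordinate`, `IsUniformized`, `placesOver`, ...) are the ones of S24.
-/
import Mathlib
import Fermat.Agent.S24.Defs
import Fermat.Agent.S24.ANDefs

set_option autoImplicit false

noncomputable section

namespace Fermat.Agent.S29.DictC

open Fermat.Agent.S24
open AlgebraicCurve IntermediateField UpperHalfPlane Filter CongruenceSubgroup
open scoped MatrixGroups Manifold Topology

/-! ### The concrete objects over `ℂ` -/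

/-- The base field (here `ℂ`; the name is kept from S24). -/
abbrev QBar : Type := ℂ

/-- The function field of `X₀(N)` over `ℂ`, as an intermediate field of `ℂ((q))`. -/
abbrev funFieldSub (N : ℕ) : IntermediateField ℂ (LaurentSeries ℂ) :=
  ModularCurve.laurentBaseChange ℂ (ModularCurve.modularFunctionFieldFull N)

/-- The function field of `X₀(N)` over `ℂ` (inside `ℂ((q))`). -/
abbrev FunField (N : ℕ) : Type := ↥(funFieldSub N)

/-- The formal `q`-expansion of `z ↦ j(d z)` with coefficients in `ℂ`. -/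
def jLaurent (d : ℕ) [NeZero d] : LaurentSeries QBar :=
  ModularCurve.coeffEmb QBar (ModularCurve.qExpand ℚ d ModularCurve.jq)

theorem jLaurent_mem (N : ℕ) {d : ℕ} [NeZero d] (hd : d ∣ N) :
    jLaurent d ∈ funFieldSub N :=
  ModularCurve.coeffEmb_mem_laurentBaseChange QBar (ModularCurve.jqd_mem_full N hd)

/-- `j(d z)` as an element of the function field of `X₀(N)`, for `d ∣ N`. -/
def jDiv (N : ℕ) (d : ℕ) [NeZero d] (hd : d ∣ N) : FunField N :=
  ⟨jLaurent d, jLaurent_mem N hd⟩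

/-- The modular invariant `j` as an element of the function field of `X₀(N)`. -/
def jF (N : ℕ) : FunField N := jDiv N 1 (one_dvd N)

/-- The embedding of the base field into `ℂ` (here the identity). -/
def iota : QBar →+* ℂ := RingHom.id ℂ

/-- The generators `j(dz)`, `d ∣ N`, of the function field. -/
def jDivSet (N : ℕ) : Set (FunField N) :=
  {x | ∃ (d : ℕ) (_ : NeZero d) (hd : d ∣ N), x = jDiv N d hd}

/-- The subalgebra `ℂ[j(dz) : d ∣ N]` of the function field. -/
def ringA (N : ℕ) : Subalgebra QBar (FunField N) := Algebra.adjoin QBar (jDivSet N)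

theorem jDiv_mem_ringA (N : ℕ) (d : ℕ) [NeZero d] (hd : d ∣ N) : jDiv N d hd ∈ ringA N :=
  Algebra.subset_adjoin ⟨d, ‹_›, hd, rfl⟩

/-- `j(dz)` as an element of `ringA N`. -/
def jDivA (N : ℕ) (d : ℕ) [NeZero d] (hd : d ∣ N) : ringA N := ⟨jDiv N d hd, jDiv_mem_ringA N d hd⟩

/-- `j` as an element of `ringA N`. -/
def jA (N : ℕ) : ringA N := jDivA N 1 (one_dvd N)

/-- **The bridge** between the formal function field and functions on `ℍ`. -/
structure IsBridge (N : ℕ) (Θ₀ : ringA N →+* (ℍ → ℂ)) (π : ℂ →+ QBar) : Prop where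
  map_const : ∀ (c : QBar) (z : ℍ), Θ₀ (algebraMap QBar (ringA N) c) z = iota c
  map_jDiv : ∀ (d : ℕ) [NeZero d] (hd : d ∣ N) (z : ℍ), Θ₀ (jDivA N d hd) z = jfunMul d z
  holo : ∀ a : ringA N, MDiff (Θ₀ a)
  inv : ∀ (a : ringA N) (γ : SL(2, ℤ)), γ ∈ Gamma0 N → ∀ z : ℍ, Θ₀ a (γ • z) = Θ₀ a z
  retract_one : π 1 = 1
  retract_mul : ∀ (c : QBar) (x : ℂ), π (iota c * x) = c * π x
  descent : ∀ (n : ℕ) (c : Fin n → ℂ) (a : Fin n → ringA N),
    (∀ z : ℍ, ∑ i, c i * Θ₀ (a i) z = 0) → ∑ i, π (c i) • a i = 0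

/-- (AN-A) The bridge exists. -/
def BridgeStatement : Prop :=
  ∀ (N : ℕ) [NeZero N], ∃ (Θ₀ : ringA N →+* (ℍ → ℂ)) (π : ℂ →+ QBar), IsBridge N Θ₀ π

/-- (AN-B) All translates of all elements of `ringA N` have moderate growth. -/
def GrowthStatement : Prop :=
  ∀ (N : ℕ) [NeZero N] (Θ₀ : ringA N →+* (ℍ → ℂ)) (π : ℂ →+ QBar), IsBridge N Θ₀ π →
    ∀ (a : ringA N) (γ : SL(2, ℤ)), ModerateGrowth (translate (Θ₀ a) γ)

/-! ### Places at points of `ℍ` and at cusps -/

/-- `v` is the place of `F` "at the point `z`": its valuation ring consists of the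
quotients `a / b` with `ord_z(Θ₀ a) ≥ ord_z(Θ₀ b)`. -/
def IsPlaceAt {N : ℕ} (Θ₀ : ringA N →+* (ℍ → ℂ)) (z : ℍ) (v : Place QBar (FunField N)) : Prop :=
  ∀ a b : ringA N, b ≠ 0 →
    ((a : FunField N) / (b : FunField N) ∈ v.toValuationSubring ↔
      ordAt (Θ₀ b) z ≤ ordAt (Θ₀ a) z)

/-- `v` is the place of `F` "at the cusp `γ⁻¹ ∞`": its valuation ring consists of the
quotients `a / b` with `ord_∞(a^γ) ≥ ord_∞(b^γ)`. -/
def IsPlaceAtCusp {N : ℕ} (Θ₀ : ringA N →+* (ℍ → ℂ)) (γ : SL(2, ℤ))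
    (v : Place QBar (FunField N)) : Prop :=
  ∀ (a b : ringA N) (m n : ℤ), IsCuspOrd N (translate (Θ₀ a) γ) m →
    IsCuspOrd N (translate (Θ₀ b) γ) n →
      ((a : FunField N) / (b : FunField N) ∈ v.toValuationSubring ↔ n ≤ m)

/-- (AN-F0) Every nonzero element of `ringA N` has an order at every cusp. -/
def CuspOrdExistsStatement : Prop :=
  ∀ (N : ℕ) [NeZero N] (Θ₀ : ringA N →+* (ℍ → ℂ)) (π : ℂ →+ QBar), IsBridge N Θ₀ π →
    ∀ (a : ringA N) (γ : SL(2, ℤ)), a ≠ 0 → ∃ m : ℤ, IsCuspOrd N (translate (Θ₀ a) γ) m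

/-- (AN-E1) Places at the points exist. -/
def PointPlaceStatement : Prop :=
  ∀ (N : ℕ) [NeZero N] (Θ₀ : ringA N →+* (ℍ → ℂ)) (π : ℂ →+ QBar), IsBridge N Θ₀ π →
    ∀ z : ℍ, (∃ c : QBar, jfun z = iota c) → ∃ v : Place QBar (FunField N), IsPlaceAt Θ₀ z v

/-- (AN-F1) Places at the cusps exist. -/
def CuspPlaceStatement : Prop :=
  ∀ (N : ℕ) [NeZero N] (Θ₀ : ringA N →+* (ℍ → ℂ)) (π : ℂ →+ QBar), IsBridge N Θ₀ π →
    ∀ γ : SL(2, ℤ), ∃ v : Place QBar (FunField N), IsPlaceAtCusp Θ₀ γ v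

/-- A family of places `P x` attached to the points `γ⁻¹ • z₀`. -/
def IsPointFamily {N : ℕ} (Θ₀ : ringA N →+* (ℍ → ℂ)) (z₀ : ℍ)
    (P : XN N → Place QBar (FunField N)) : Prop :=
  ∀ γ : SL(2, ℤ), IsPlaceAt Θ₀ (γ⁻¹ • z₀) (P (γ : XN N))

/-- A family of places `P x` attached to the cusps `γ⁻¹ ∞`. -/
def IsCuspFamily {N : ℕ} (Θ₀ : ringA N →+* (ℍ → ℂ))
    (P : XN N → Place QBar (FunField N)) : Prop :=
  ∀ γ : SL(2, ℤ), IsPlaceAtCusp Θ₀ γ (P (γ : XN N))

/-- (AN-E2) Point families exist, vanish on `j - c`, and are invariant under the stabilizer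
of `z₀`. -/
def PointFamilyStatement : Prop :=
  ∀ (N : ℕ) [NeZero N] (Θ₀ : ringA N →+* (ℍ → ℂ)) (π : ℂ →+ QBar), IsBridge N Θ₀ π →
    ∀ (c : QBar) (z₀ : ℍ), jfun z₀ = iota c →
      ∃ P : XN N → Place QBar (FunField N), IsPointFamily Θ₀ z₀ P ∧
        (∀ x, jF N - algebraMap QBar (FunField N) c ∈ (P x).toValuationSubring.nonunits) ∧
        (∀ (h : SL(2, ℤ)) (x : XN N), h • z₀ = z₀ → P (h • x) = P x)

/-- (AN-E3 generic) `j - c` is unramified over a generic point. -/
def RamGenericStatement : Prop :=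
  ∀ (N : ℕ) [NeZero N] (Θ₀ : ringA N →+* (ℍ → ℂ)) (π : ℂ →+ QBar), IsBridge N Θ₀ π →
    ∀ (c : QBar) (z₀ : ℍ), jfun z₀ = iota c → c ≠ 0 → c ≠ 1728 →
      ∀ P : XN N → Place QBar (FunField N), IsPointFamily Θ₀ z₀ P →
        ∀ x, (P x).ord (jF N - algebraMap QBar (FunField N) c) ≤ 1

/-- (AN-E3 i) Ramification bound over `j = 1728` (base point `i`, stabilizer `⟨S⟩`). -/
def RamIStatement : Prop :=
  ∀ (N : ℕ) [NeZero N] (Θ₀ : ringA N →+* (ℍ → ℂ)) (π : ℂ →+ QBar), IsBridge N Θ₀ π →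
    ∀ P : XN N → Place QBar (FunField N), IsPointFamily Θ₀ UpperHalfPlane.I P →
      ∀ x, (P x).ord (jF N - algebraMap QBar (FunField N) 1728) ≤
        (Nat.card (MulAction.orbit (Subgroup.zpowers ModularGroup.S) x) : ℤ)

/-- (AN-E3 ρ) Ramification bound over `j = 0` (base point `ρ`, stabilizer `⟨S T⟩`). -/
def RamRhoStatement : Prop :=
  ∀ (N : ℕ) [NeZero N] (Θ₀ : ringA N →+* (ℍ → ℂ)) (π : ℂ →+ QBar), IsBridge N Θ₀ π →
    ∀ P : XN N → Place QBar (FunField N), IsPointFamily Θ₀ anE_rho P →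
      ∀ x, (P x).ord (jF N) ≤
        (Nat.card (MulAction.orbit (Subgroup.zpowers elST) x) : ℤ)

/-- (AN-F2) The cusp family exists, vanishes on `j⁻¹`, is `T`-invariant, and satisfies the
ramification bound by the width. -/
def CuspFamilyStatement : Prop :=
  ∀ (N : ℕ) [NeZero N] (Θ₀ : ringA N →+* (ℍ → ℂ)) (π : ℂ →+ QBar), IsBridge N Θ₀ π →
    ∃ P : XN N → Place QBar (FunField N), IsCuspFamily Θ₀ P ∧
      (∀ x, (jF N)⁻¹ ∈ (P x).toValuationSubring.nonunits) ∧
      (∀ x : XN N, P (ModularGroup.T • x) = P x) ∧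
      (∀ x : XN N, (P x).ord (jF N)⁻¹ ≤
        (Nat.card (MulAction.orbit (Subgroup.zpowers ModularGroup.T) x) : ℤ))

/-- (AN-D) The symmetric-function property over a finite point. -/
def SymPointStatement : Prop :=
  ∀ (N : ℕ) [NeZero N] (Θ₀ : ringA N →+* (ℍ → ℂ)) (π : ℂ →+ QBar), IsBridge N Θ₀ π →
    ∀ (c : QBar) (z₀ : ℍ), jfun z₀ = iota c →
      ∀ P : XN N → Place QBar (FunField N), IsPointFamily Θ₀ z₀ P →
        ∀ g : FunField N,
          IsIntegral (Algebra.adjoin QBar {jF N - algebraMap QBar (FunField N) c}) g →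
          (∀ x, g ∈ (P x).toValuationSubring.nonunits) →
            ∃ b : FunField N,
              IsIntegral (Algebra.adjoin QBar {jF N - algebraMap QBar (FunField N) c}) b ∧
                g ^ Nat.card (XN N) = (jF N - algebraMap QBar (FunField N) c) * b

/-- (AN-D∞) The symmetric-function property over the cusps. -/
def SymCuspStatement : Prop :=
  ∀ (N : ℕ) [NeZero N] (Θ₀ : ringA N →+* (ℍ → ℂ)) (π : ℂ →+ QBar), IsBridge N Θ₀ π →
    ∀ P : XN N → Place QBar (FunField N), IsCuspFamily Θ₀ P →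
      ∀ g : FunField N,
        IsIntegral (Algebra.adjoin QBar {(jF N)⁻¹}) g →
        (∀ x, g ∈ (P x).toValuationSubring.nonunits) →
          ∃ b : FunField N,
            IsIntegral (Algebra.adjoin QBar {(jF N)⁻¹}) b ∧
              g ^ Nat.card (XN N) = (jF N)⁻¹ * b

/-- (AN-D0) Every element of `ringA N` is integral over `ℂ[j]`. -/
def RingAIntegralStatement : Prop :=
  ∀ (N : ℕ) [NeZero N] (Θ₀ : ringA N →+* (ℍ → ℂ)) (π : ℂ →+ QBar), IsBridge N Θ₀ π →
    ∀ a : ringA N, IsIntegral (Algebra.adjoin QBar {jF N}) (a : FunField N)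

/-- (AN-G0) The formal `j` is transcendental over `ℂ`. -/
def JTranscendentalStatement : Prop :=
  ∀ (N : ℕ) [NeZero N], Transcendental QBar (jF N)

/-! ### (AN) the analytic input, top level -/

/-- (AN-coord) `j` is a coordinate on `X₀(N)`. -/
def JCoordinateStatement : Prop :=
  ∀ (N : ℕ) [NeZero N], IsCoordinate QBar (jF N)

/-- (AN-G) `[F : ℂ(j)] ≥ [SL(2,ℤ) : Γ₀(N)]`. -/
def DegreeLowerBoundStatement : Prop :=
  ∀ (N : ℕ) [NeZero N], Nat.card (XN N) ≤ Module.finrank QBar⟮jF N⟯ (FunField N)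

/-- (AN-gen) Uniformization over a generic point `j = c`, `c ≠ 0, 1728`. -/
def UniformizedGenericStatement : Prop :=
  ∀ (N : ℕ) [NeZero N] (c : QBar), c ≠ 0 → c ≠ 1728 →
    ∃ P : XN N → Place QBar (FunField N),
      IsUniformized (jF N - algebraMap QBar (FunField N) c) (⊥ : Subgroup SL(2, ℤ)) P

/-- (AN-i) Uniformization over `j = 1728` (the orbit of `i`, stabilizer generated by `S`). -/
def UniformizedIStatement : Prop :=
  ∀ (N : ℕ) [NeZero N],
    ∃ P : XN N → Place QBar (FunField N),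
      IsUniformized (jF N - algebraMap QBar (FunField N) 1728)
        (Subgroup.zpowers ModularGroup.S) P

/-- (AN-ρ) Uniformization over `j = 0` (the orbit of `ρ`, stabilizer generated by `S T`). -/
def UniformizedRhoStatement : Prop :=
  ∀ (N : ℕ) [NeZero N],
    ∃ P : XN N → Place QBar (FunField N),
      IsUniformized (jF N) (Subgroup.zpowers elST) P

/-- (AN-∞) Uniformization over `j = ∞` (the cusps, stabilizer generated by `T`). -/
def UniformizedCuspStatement : Prop :=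
  ∀ (N : ℕ) [NeZero N],
    ∃ P : XN N → Place QBar (FunField N),
      IsUniformized (jF N)⁻¹ (Subgroup.zpowers ModularGroup.T) P

end Fermat.Agent.S29.DictC
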