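-- S29 [DICT]: port of Fermat/Agent/S24/FracRingA.lean to the constant field ℂ (see DictC/Defs.lean).
/-
S24, shared algebra for the analytic part: the function field is the field of fractions of
`ringA N`, the bridge is injective, and a place from an order function given on `ringA N`.
Owner: helper2.
-/
import Mathlib
import Fermat.Agent.S24.ANDefs
import Fermat.Agent.S29.DictC.Defs
import Fermat.Agent.S24.ValPlace

set_option autoImplicit false

noncomputable section

namespace Fermat.Agent.S29.DictC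

open Fermat.Agent.S24

open AlgebraicCurve IntermediateField UpperHalfPlane
open scoped MatrixGroups

/-! ### Fractions of a subalgebra -/

section Fractions

variable {K E : Type*} [Field K] [Field E] [Algebra K E]

/-- The set of fractions `a / b` with `a, b` in a subalgebra `A` of a field, as an
intermediate field. -/
def fracA_field (A : Subalgebra K E) : IntermediateField K E :=
  Subalgebra.toIntermediateField
    { carrier := {x | ∃ a ∈ A, ∃ b ∈ A, b ≠ 0 ∧ x = a / b}
      mul_mem' := by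
        rintro x y ⟨a, ha, b, hb, hb0, rfl⟩ ⟨c, hc, d, hd, hd0, rfl⟩
        exact ⟨a * c, mul_mem ha hc, b * d, mul_mem hb hd, mul_ne_zero hb0 hd0, by
          field_simp⟩
      add_mem' := by
        rintro x y ⟨a, ha, b, hb, hb0, rfl⟩ ⟨c, hc, d, hd, hd0, rfl⟩
        exact ⟨a * d + c * b, add_mem (mul_mem ha hd) (mul_mem hc hb), b * d, mul_mem hb hd,
          mul_ne_zero hb0 hd0, by field_simp⟩
      algebraMap_mem' := by
        intro c
        exact ⟨algebraMap K E c, A.algebraMap_mem c, 1, one_mem A, one_ne_zero, by simp⟩ }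
    (by
      rintro x ⟨a, ha, b, hb, hb0, rfl⟩
      rcases eq_or_ne a 0 with rfl | ha0
      · exact ⟨0, zero_mem A, 1, one_mem A, one_ne_zero, by simp⟩
      · exact ⟨b, hb, a, ha, ha0, by rw [inv_div]⟩)

theorem fracA_mem_field (A : Subalgebra K E) (x : E) :
    x ∈ fracA_field A ↔ ∃ a ∈ A, ∃ b ∈ A, b ≠ 0 ∧ x = a / b := Iff.rfl

theorem fracA_le_field (A : Subalgebra K E) (a : E) (ha : a ∈ A) : a ∈ fracA_field A :=
  ⟨a, ha, 1, one_mem A, one_ne_zero, by simp⟩

end Fractions

/-! ### The function field of `X₀(N)` is the fraction field of `ringA N` -/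

/-- The image of `ringA N` in `Q̄((q))`. -/
def fracA_ringL (N : ℕ) : Subalgebra QBar (LaurentSeries QBar) :=
  (ringA N).map (funFieldSub N).val

theorem fracA_jLaurent_mem (N : ℕ) {d : ℕ} [NeZero d] (hd : d ∣ N) :
    jLaurent d ∈ fracA_ringL N :=
  ⟨jDiv N d hd, jDiv_mem_ringA N d hd, rfl⟩

theorem fracA_coeffEmb_algebraMap (c : ℚ) :
    ModularCurve.coeffEmb QBar (algebraMap ℚ (LaurentSeries ℚ) c) =
      algebraMap QBar (LaurentSeries QBar) (algebraMap ℚ QBar c) := by
  rw [ModularCurve.algebraMap_laurentSeries_eq_single, ModularCurve.algebraMap_laurentSeries_eq_single,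
    ModularCurve.coeffEmb, ModularCurve.coeffMap_single]

theorem fracA_coeffEmb_mem (N : ℕ) {y : LaurentSeries ℚ}
    (hy : y ∈ ModularCurve.modularFunctionFieldFull N) :
    ModularCurve.coeffEmb QBar y ∈ fracA_field (fracA_ringL N) := by
  unfold ModularCurve.modularFunctionFieldFull at hy
  induction hy using IntermediateField.adjoin_induction with
  | mem x hx =>
    obtain ⟨d, hd0, hd, rfl⟩ := hx
    exact fracA_le_field _ _ (fracA_jLaurent_mem N hd)
  | algebraMap c =>
    rw [fracA_coeffEmb_algebraMap]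
    exact (fracA_field (fracA_ringL N)).algebraMap_mem _
  | add x y _ _ hx hy =>
    rw [map_add]
    exact add_mem hx hy
  | inv x _ hx =>
    rw [map_inv₀]
    exact inv_mem hx
  | mul x y _ _ hx hy =>
    rw [map_mul]
    exact mul_mem hx hy

theorem fracA_funField_le (N : ℕ) :
    funFieldSub N ≤ fracA_field (fracA_ringL N) := by
  unfold funFieldSub ModularCurve.laurentBaseChange
  rw [IntermediateField.adjoin_le_iff]
  rintro x ⟨y, hy, rfl⟩
  exact fracA_coeffEmb_mem N hy

/-- **`F = Frac (ringA N)`**: every element of the function field is a quotient of two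
elements of `ringA N`. -/
theorem fracA_exists_div (N : ℕ) (f : FunField N) :
    ∃ a b : ringA N, b ≠ 0 ∧ f = (a : FunField N) / (b : FunField N) := by
  obtain ⟨a, ⟨a', ha', rfl⟩, b, ⟨b', hb', rfl⟩, hb0, h⟩ := fracA_funField_le N f.2
  refine ⟨⟨a', ha'⟩, ⟨b', hb'⟩, ?_, ?_⟩
  · intro hb
    apply hb0
    have : b' = 0 := congrArg Subtype.val hb
    rw [this]
    rfl
  · apply Subtype.ext
    rw [h]
    rfl

/-! ### Injectivity of the bridge -/

theorem fracA_bridge_eq_zero {N : ℕ} {Θ₀ : ringA N →+* (ℍ → ℂ)} {π : ℂ →+ QBar}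
    (hΘ : IsBridge N Θ₀ π) {a : ringA N} (h : ∀ z : ℍ, Θ₀ a z = 0) : a = 0 := by
  have := hΘ.descent 1 (fun _ => 1) (fun _ => a) (by
    intro z
    simp [h z])
  simpa [hΘ.retract_one] using this

theorem fracA_bridge_injective {N : ℕ} {Θ₀ : ringA N →+* (ℍ → ℂ)} {π : ℂ →+ QBar}
    (hΘ : IsBridge N Θ₀ π) : Function.Injective Θ₀ := by
  rw [injective_iff_map_eq_zero]
  intro a ha
  exact fracA_bridge_eq_zero hΘ (fun z => by rw [ha]; rfl)

theorem fracA_bridge_ne_zero {N : ℕ} {Θ₀ : ringA N →+* (ℍ → ℂ)} {π : ℂ →+ QBar}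
    (hΘ : IsBridge N Θ₀ π) {a : ringA N} (ha : a ≠ 0) : ∃ z : ℍ, Θ₀ a z ≠ 0 := by
  by_contra hcon
  exact ha (fracA_bridge_eq_zero hΘ (fun z => by
    by_contra hz
    exact hcon ⟨z, hz⟩))

/-! ### A place from an order function on a subalgebra with fraction field `F` -/

section PlaceFromOrd

variable {K F : Type*} [Field K] [Field F] [Algebra K F]

/-- **(VAL) on a subalgebra.**  Let `A ⊆ F` be a `K`-subalgebra with `F = Frac A` and
`ord : A → ℤ` an order function on `A \ 0`.  Then there is a place `v` of `F / K` and `m > 0`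
such that `a / b` is regular at `v` iff `ord b ≤ ord a`, and `m * v.ord (a / b) = ord a - ord b`. -/
theorem fracA_exists_place (A : Subalgebra K F)
    (hA : ∀ f : F, ∃ a b : A, b ≠ 0 ∧ f = (a : F) / (b : F))
    (ord : A → ℤ)
    (hmul : ∀ a b : A, a ≠ 0 → b ≠ 0 → ord (a * b) = ord a + ord b)
    (hadd : ∀ a b : A, a ≠ 0 → b ≠ 0 → a + b ≠ 0 → min (ord a) (ord b) ≤ ord (a + b))
    (hK : ∀ c : K, c ≠ 0 → ord (algebraMap K A c) = 0)
    (hne : ∃ a : A, a ≠ 0 ∧ ord a ≠ 0) :
    ∃ (v : Place K F) (m : ℕ), 0 < m ∧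
      (∀ a b : A, a ≠ 0 → b ≠ 0 →
        ((a : F) / (b : F) ∈ v.toValuationSubring ↔ ord b ≤ ord a)) ∧
      (∀ a b : A, a ≠ 0 → b ≠ 0 →
        ((a : F) / (b : F) ∈ v.toValuationSubring.nonunits ↔ ord b < ord a)) ∧
      (∀ a b : A, a ≠ 0 → b ≠ 0 → ord a - ord b = (m : ℤ) * v.ord ((a : F) / (b : F))) ∧
      (∀ a : A, a ≠ 0 → ord a = (m : ℤ) * v.ord (a : F)) := by
  classical
  have hcoe0 : ∀ a : A, a ≠ 0 → (a : F) ≠ 0 := fun a ha h => ha (Subtype.ext h)
  have hord1 : ord 1 = 0 := by
    have := hmul 1 1 one_ne_zero one_ne_zero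
    rw [mul_one] at this
    omega
  -- the order function on `F`
  have hA' : ∀ f : F, ∃ p : A × A, p.2 ≠ 0 ∧ f = (p.1 : F) / (p.2 : F) := by
    intro f
    obtain ⟨a, b, hb, hf⟩ := hA f
    exact ⟨(a, b), hb, hf⟩
  choose nd hnd0 hnd using hA'
  let w : F → ℤ := fun f => if f = 0 then 0 else ord (nd f).1 - ord (nd f).2
  have hw : ∀ a b : A, a ≠ 0 → b ≠ 0 → w ((a : F) / (b : F)) = ord a - ord b := by
    intro a b ha hb
    have hf0 : (a : F) / (b : F) ≠ 0 := div_ne_zero (hcoe0 a ha) (hcoe0 b hb)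
    have hb'0 := hnd0 ((a : F) / (b : F))
    have hf := hnd ((a : F) / (b : F))
    have hwf : w ((a : F) / (b : F)) =
        ord (nd ((a : F) / (b : F))).1 - ord (nd ((a : F) / (b : F))).2 := by
      simp only [w, if_neg hf0]
    generalize nd ((a : F) / (b : F)) = p at hb'0 hf hwf
    obtain ⟨a', b'⟩ := p
    simp only at hb'0 hf hwf
    have ha'0 : a' ≠ 0 := by
      rintro rfl
      simp only [ZeroMemClass.coe_zero, zero_div] at hf
      exact hf0 hf
    have hcross : a * b' = a' * b := by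
      apply Subtype.ext
      push_cast
      have hbF := hcoe0 b hb
      have hb'F := hcoe0 b' hb'0
      field_simp at hf
      rw [hf]
      ring
    have h1 := hmul a b' ha hb'0
    have h2 := hmul a' b ha'0 hb
    rw [hcross] at h1
    rw [hwf]
    omega
  have hw1 : ∀ a : A, a ≠ 0 → w (a : F) = ord a := by
    intro a ha
    have := hw a 1 ha one_ne_zero
    simpa [hord1] using this
  have hwmul : ∀ f g : F, f ≠ 0 → g ≠ 0 → w (f * g) = w f + w g := by
    intro f g hf hg
    obtain ⟨a, b, hb, rfl⟩ := hA f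
    obtain ⟨c, d, hd, rfl⟩ := hA g
    have ha : a ≠ 0 := by
      rintro rfl
      simp at hf
    have hc : c ≠ 0 := by
      rintro rfl
      simp at hg
    have : (a : F) / (b : F) * ((c : F) / (d : F)) = ((a * c : A) : F) / ((b * d : A) : F) := by
      push_cast
      rw [div_mul_div_comm]
    rw [this, hw _ _ (mul_ne_zero ha hc) (mul_ne_zero hb hd), hw a b ha hb, hw c d hc hd,
      hmul a c ha hc, hmul b d hb hd]
    ring
  have hwadd : ∀ f g : F, f ≠ 0 → g ≠ 0 → f + g ≠ 0 → min (w f) (w g) ≤ w (f + g) := by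
    intro f g hf hg hfg
    obtain ⟨a, b, hb, rfl⟩ := hA f
    obtain ⟨c, d, hd, rfl⟩ := hA g
    have ha : a ≠ 0 := by
      rintro rfl
      simp at hf
    have hc : c ≠ 0 := by
      rintro rfl
      simp at hg
    have hbF := hcoe0 b hb
    have hdF := hcoe0 d hd
    have hsum : (a : F) / (b : F) + (c : F) / (d : F) =
        ((a * d + c * b : A) : F) / ((b * d : A) : F) := by
      push_cast
      field_simp
    have hnum : a * d + c * b ≠ 0 := by
      intro h
      rw [hsum, h] at hfg
      simp at hfg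
    rw [hsum, hw _ _ hnum (mul_ne_zero hb hd), hw a b ha hb, hw c d hc hd, hmul b d hb hd]
    have h1 := hadd (a * d) (c * b) (mul_ne_zero ha hd) (mul_ne_zero hc hb) hnum
    rw [hmul a d ha hd, hmul c b hc hb] at h1
    rcases le_total (ord a + ord d) (ord c + ord b) with h | h
    · rw [min_eq_left h] at h1
      exact le_trans (min_le_left _ _) (by omega)
    · rw [min_eq_right h] at h1
      exact le_trans (min_le_right _ _) (by omega)
  have hwK : ∀ c : K, c ≠ 0 → w (algebraMap K F c) = 0 := by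
    intro c hc
    have hc' : algebraMap K A c ≠ 0 := by
      intro h
      have : algebraMap K F c = 0 := by
        have := congrArg (Subtype.val) h
        simpa using this
      exact hc (by simpa using this)
    have := hw1 (algebraMap K A c) hc'
    rw [hK c hc] at this
    exact this
  have hwne : ∃ f : F, f ≠ 0 ∧ w f ≠ 0 := by
    obtain ⟨a, ha, hoa⟩ := hne
    exact ⟨a, hcoe0 a ha, by rw [hw1 a ha]; exact hoa⟩
  obtain ⟨v, m, hm, hval, hmem, hnon, -, -, -⟩ :=
    val_exists_place_full (K := K) w hwmul hwadd hwK hwne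
  refine ⟨v, m, hm, ?_, ?_, ?_, ?_⟩
  · intro a b ha hb
    have hf0 : (a : F) / (b : F) ≠ 0 := div_ne_zero (hcoe0 a ha) (hcoe0 b hb)
    rw [hmem, hw a b ha hb]
    simp only [hf0, false_or]
    omega
  · intro a b ha hb
    have hf0 : (a : F) / (b : F) ≠ 0 := div_ne_zero (hcoe0 a ha) (hcoe0 b hb)
    rw [hnon, hw a b ha hb]
    simp only [hf0, false_or]
    omega
  · intro a b ha hb
    have hf0 : (a : F) / (b : F) ≠ 0 := div_ne_zero (hcoe0 a ha) (hcoe0 b hb)
    rw [← hval _ hf0, hw a b ha hb]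
  · intro a ha
    rw [← hval _ (hcoe0 a ha), hw1 a ha]

/-- Two places whose valuation rings contain the same fractions `a / b` (`a, b ∈ A \ 0`)
are equal. -/
theorem fracA_place_ext (A : Subalgebra K F)
    (hA : ∀ f : F, ∃ a b : A, b ≠ 0 ∧ f = (a : F) / (b : F)) {v v' : Place K F}
    (h : ∀ a b : A, a ≠ 0 → b ≠ 0 →
      ((a : F) / (b : F) ∈ v.toValuationSubring ↔ (a : F) / (b : F) ∈ v'.toValuationSubring)) :
    v = v' := by
  apply Place.ext
  ext f
  obtain ⟨a, b, hb, rfl⟩ := hA f
  rcases eq_or_ne a 0 with rfl | ha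
  · simp
  · exact h a b ha hb

end PlaceFromOrd

end Fermat.Agent.S29.DictC
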