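-- S29 [DICT]: port of Fermat/Agent/S24/TranslateAN.lean to the constant field ℂ (see DictC/Defs.lean).
/-
S24, package AN-B (owner: helper24): the statements of `ANDefs.lean` about translates.

* `anB_jfunMul_eq`       : `jfunMul d = anB_jd d`
* `anB_isModFun_bridge`  : every `Θ₀ a` (`a ∈ ringA N`) is a modular function of level `Γ₀(N)`
* `anB_growth`           : `GrowthStatement`
* `anB_translate_*`      : the API of `S24.translate` for bridge functions
-/
import Mathlib
import Fermat.Agent.S24.ANDefs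
import Fermat.Agent.S29.DictC.Defs
import Fermat.Agent.S24.Translate

set_option autoImplicit false

noncomputable section

namespace Fermat.Agent.S29.DictC

open Fermat.Agent.S24

open UpperHalfPlane ModularFormClass CongruenceSubgroup Matrix.SpecialLinearGroup Function
open ModularForm Filter Asymptotics
open scoped MatrixGroups ModularForm Manifold Topology

theorem anB_ofComplex_mul (d : ℕ) [NeZero d] (z : ℍ) :
    ofComplex ((d : ℂ) * (z : ℂ)) = heckeDiagMatrix d • z := by
  apply UpperHalfPlane.ext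
  rw [coe_heckeDiagMatrix_smul (NeZero.ne d)]
  have hpos : 0 < ((d : ℂ) * (z : ℂ)).im := by
    have hd : (0 : ℝ) < d := by exact_mod_cast Nat.pos_of_ne_zero (NeZero.ne d)
    simpa using mul_pos hd z.im_pos
  rw [ofComplex_apply_of_im_pos hpos]

theorem anB_jfunMul_eq (d : ℕ) [NeZero d] : jfunMul d = anB_jd d := by
  funext z
  rw [jfunMul, anB_jd, anB_ofComplex_mul]

theorem anB_moderateGrowth_iff (f : ℍ → ℂ) : ModerateGrowth f ↔ anB_Growth f := Iff.rfl

/-- Every function in the image of the bridge is a modular function of level `Γ₀(N)`. -/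
theorem anB_isModFun_bridge {N : ℕ} {Θ₀ : ringA N →+* (ℍ → ℂ)} {π : ℂ →+ QBar}
    (hB : IsBridge N Θ₀ π) (a : ringA N) : anB_IsModFun N (Θ₀ a) := by
  obtain ⟨a, ha⟩ := a
  induction ha using Algebra.adjoin_induction with
  | mem x hx =>
    obtain ⟨d, hd0, hd, rfl⟩ := hx
    have h1 : Θ₀ ⟨jDiv N d hd, Algebra.subset_adjoin ⟨d, hd0, hd, rfl⟩⟩ = anB_jd d := by
      funext z
      rw [← anB_jfunMul_eq]
      exact hB.map_jDiv d hd z
    rw [h1]
    exact anB_isModFun_jd hd
  | algebraMap c =>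
    have h1 : Θ₀ ⟨algebraMap QBar (FunField N) c, Subalgebra.algebraMap_mem _ c⟩ =
        fun _ : ℍ => iota c := by
      funext z
      exact hB.map_const c z
    rw [h1]
    exact anB_IsModFun.const _
  | add x y hx hy ihx ihy =>
    have h1 : Θ₀ ⟨x + y, Subalgebra.add_mem _ hx hy⟩ = Θ₀ ⟨x, hx⟩ + Θ₀ ⟨y, hy⟩ := by
      rw [← map_add]
      rfl
    rw [h1]
    exact ihx.add ihy
  | mul x y hx hy ihx ihy =>
    have h1 : Θ₀ ⟨x * y, Subalgebra.mul_mem _ hx hy⟩ = Θ₀ ⟨x, hx⟩ * Θ₀ ⟨y, hy⟩ := by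
      rw [← map_mul]
      rfl
    rw [h1]
    exact ihx.mul ihy

/-- (AN-B) All translates of all elements of `ringA N` have moderate growth. -/
theorem anB_growth : GrowthStatement := by
  intro N _ Θ₀ π hB a γ
  exact (anB_isModFun_bridge hB a).growth γ⁻¹

/-! ### API for `S24.translate` -/

theorem anB_translate_apply (f : ℍ → ℂ) (γ : SL(2, ℤ)) (z : ℍ) :
    S24.translate f γ z = f (γ⁻¹ • z) := rfl

theorem anB_translate_eq_tr {N : ℕ} {f : ℍ → ℂ}
    (hinv : ∀ γ ∈ Gamma0 N, ∀ z : ℍ, f (γ • z) = f z) (γ : SL(2, ℤ)) :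
    S24.translate f γ = anB_tr N f (QuotientGroup.mk γ : XN N) := by
  funext z
  rw [anB_tr_mk hinv]
  rfl

/-- The S24.translate depends only on the left coset `γ Γ₀(N)`. -/
theorem anB_translate_congr {N : ℕ} {f : ℍ → ℂ}
    (hinv : ∀ γ ∈ Gamma0 N, ∀ z : ℍ, f (γ • z) = f z) {γ γ' : SL(2, ℤ)}
    (h : (QuotientGroup.mk γ : XN N) = QuotientGroup.mk γ') :
    S24.translate f γ = S24.translate f γ' := by
  rw [anB_translate_eq_tr hinv, anB_translate_eq_tr hinv, h]

theorem anB_translate_smul (f : ℍ → ℂ) (γ δ : SL(2, ℤ)) (z : ℍ) :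
    S24.translate f γ (δ • z) = S24.translate f (δ⁻¹ * γ) z := by
  rw [anB_translate_apply, anB_translate_apply, mul_inv_rev, inv_inv, mul_smul]

theorem anB_translate_mdiff {f : ℍ → ℂ} (hf : MDiff f) (γ : SL(2, ℤ)) :
    MDiff (S24.translate f γ) :=
  anB_mdiff_comp_smul hf _

theorem anB_translate_growth {N : ℕ} {f : ℍ → ℂ} (hf : anB_IsModFun N f) (γ : SL(2, ℤ)) :
    ModerateGrowth (S24.translate f γ) :=
  hf.growth γ⁻¹

/-- Every S24.translate is invariant under `z ↦ z + N`. -/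
theorem anB_translate_vadd {N : ℕ} {f : ℍ → ℂ}
    (hinv : ∀ γ ∈ Gamma0 N, ∀ z : ℍ, f (γ • z) = f z) (γ : SL(2, ℤ)) (z : ℍ) :
    S24.translate f γ ((N : ℝ) +ᵥ z) = S24.translate f γ z := by
  rw [anB_translate_eq_tr hinv]
  exact anB_tr_vadd hinv _ z

/-- A S24.translate is invariant under `z ↦ z + h` when `T ^ h` fixes the coset `γ Γ₀(N)`. -/
theorem anB_translate_vadd_of_fixed {N : ℕ} {f : ℍ → ℂ}
    (hinv : ∀ γ ∈ Gamma0 N, ∀ z : ℍ, f (γ • z) = f z) (γ : SL(2, ℤ)) (h : ℤ)
    (hx : (ModularGroup.T ^ h) • (QuotientGroup.mk γ : XN N) = QuotientGroup.mk γ) (z : ℍ) :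
    S24.translate f γ ((h : ℝ) +ᵥ z) = S24.translate f γ z := by
  rw [anB_translate_eq_tr hinv]
  exact anB_tr_vadd_of_fixed hinv _ h hx z

/-- Bridge functions: the S24.translate by the trivial coset is the function itself. -/
theorem anB_translate_one (f : ℍ → ℂ) : S24.translate f 1 = f := by
  funext z
  simp [S24.translate]

end Fermat.Agent.S29.DictC
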