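-- S29 [DICT]: port of Fermat/Agent/S24/GlueAN.lean to the constant field ℂ (see DictC/Defs.lean).
/-
S24 (GLUE, part 4): the four uniformization statements of `Defs.lean` from the analytic
package statements of `ANDefs.lean`.  Owner: helper22.
-/
import Mathlib
import Fermat.Agent.S24.Defs
import Fermat.Agent.S29.DictC.Defs
import Fermat.Agent.S24.ANDefs
import Fermat.Agent.S24.GlueMain

set_option autoImplicit false
set_option linter.unusedSectionVars false
set_option linter.style.haveILetI false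

noncomputable section

namespace Fermat.Agent.S29.DictC

open Fermat.Agent.S24

open AlgebraicCurve IntermediateField UpperHalfPlane
open scoped MatrixGroups

theorem glue_zpowers_fix {g : SL(2, ℤ)} {z₀ : ℍ} (hg : g • z₀ = z₀) :
    ∀ h ∈ Subgroup.zpowers g, h • z₀ = z₀ := by
  intro h hh
  have : Subgroup.zpowers g ≤ MulAction.stabilizer SL(2, ℤ) z₀ := by
    rw [Subgroup.zpowers_le]
    exact hg
  exact this hh

theorem glue_iota_ofNat (n : ℕ) [n.AtLeastTwo] : iota (OfNat.ofNat n) = OfNat.ofNat n :=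
  map_ofNat iota n

/-- (AN-gen) from the analytic packages. -/
theorem glue_uniformizedGeneric (hB : BridgeStatement) (hsurj : JSurjectiveStatement)
    (hfam : PointFamilyStatement) (hram : RamGenericStatement) (hsym : SymPointStatement) :
    UniformizedGenericStatement := by
  intro N _ c hc0 hc1
  obtain ⟨Θ₀, π, hΘ⟩ := hB N
  obtain ⟨z₀, hz₀⟩ := hsurj (iota c)
  obtain ⟨P, hP, hvan, -⟩ := hfam N Θ₀ π hΘ c z₀ hz₀
  refine ⟨P, ⟨hvan, ?_, ?_, ?_⟩⟩
  · rintro ⟨h, hh⟩ x
    rw [Subgroup.mem_bot] at hh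
    subst hh
    show P ((1 : SL(2, ℤ)) • x) = P x
    rw [one_smul]
  · intro x
    rw [glue_card_orbit_bot]
    exact hram N Θ₀ π hΘ c z₀ hz₀ hc0 hc1 P hP x
  · exact hsym N Θ₀ π hΘ c z₀ hz₀ P hP

/-- (AN-i) from the analytic packages. -/
theorem glue_uniformizedI (hB : BridgeStatement)
    (hfam : PointFamilyStatement) (hram : RamIStatement) (hsym : SymPointStatement) :
    UniformizedIStatement := by
  intro N _
  obtain ⟨Θ₀, π, hΘ⟩ := hB N
  have hz₀ : jfun UpperHalfPlane.I = iota 1728 := by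
    rw [jfun_I, glue_iota_ofNat]
  obtain ⟨P, hP, hvan, hinv⟩ := hfam N Θ₀ π hΘ 1728 UpperHalfPlane.I hz₀
  refine ⟨P, ⟨hvan, ?_, ?_, ?_⟩⟩
  · rintro ⟨h, hh⟩ x
    exact hinv h x (glue_zpowers_fix anE_S_smul_I h hh)
  · exact hram N Θ₀ π hΘ P hP
  · exact hsym N Θ₀ π hΘ 1728 UpperHalfPlane.I hz₀ P hP

/-- (AN-ρ) from the analytic packages. -/
theorem glue_uniformizedRho (hB : BridgeStatement)
    (hfam : PointFamilyStatement) (hram : RamRhoStatement) (hsym : SymPointStatement) :
    UniformizedRhoStatement := by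
  intro N _
  obtain ⟨Θ₀, π, hΘ⟩ := hB N
  have hz₀ : jfun anE_rho = iota 0 := by
    rw [jfun_rho, map_zero]
  have hsub0 : jF N - algebraMap QBar (FunField N) 0 = jF N := by
    rw [map_zero, sub_zero]
  obtain ⟨P, hP, hvan, hinv⟩ := hfam N Θ₀ π hΘ 0 anE_rho hz₀
  rw [hsub0] at hvan
  refine ⟨P, ⟨hvan, ?_, ?_, ?_⟩⟩
  · rintro ⟨h, hh⟩ x
    exact hinv h x (glue_zpowers_fix (g := elST) anE_ST_smul_rho h hh)
  · exact hram N Θ₀ π hΘ P hP
  · have := hsym N Θ₀ π hΘ 0 anE_rho hz₀ P hP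
    rw [hsub0] at this
    exact this

/-- (AN-∞) from the analytic packages. -/
theorem glue_uniformizedCusp (hB : BridgeStatement)
    (hfam : CuspFamilyStatement) (hsym : SymCuspStatement) :
    UniformizedCuspStatement := by
  intro N _
  obtain ⟨Θ₀, π, hΘ⟩ := hB N
  obtain ⟨P, hP, hvan, hinv, hram⟩ := hfam N Θ₀ π hΘ
  refine ⟨P, ⟨hvan, ?_, hram, ?_⟩⟩
  · rintro ⟨h, hh⟩ x
    show P (h • x) = P x
    obtain ⟨k, rfl⟩ := Subgroup.mem_zpowers_iff.mp hh
    clear hh
    have hT : ∀ y, P (ModularGroup.T⁻¹ • y) = P y := by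
      intro y
      have := hinv (ModularGroup.T⁻¹ • y)
      rw [smul_inv_smul] at this
      exact this.symm
    induction k using Int.induction_on generalizing x with
    | zero => simp
    | succ n ih =>
      rw [zpow_add_one, mul_smul, ih, hinv]
    | pred n ih =>
      rw [zpow_sub_one, mul_smul, ih, hT]
  · exact hsym N Θ₀ π hΘ P hP

end Fermat.Agent.S29.DictC
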