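-- S29 [DICT]: port of Fermat/Agent/S24/PointRam.lean to the constant field ℂ (see DictC/Defs.lean).
/-
S24 package AN-E (helper7): the ramification bounds (AN-E3) over a generic point, over
`j = 1728` and over `j = 0`.
-/
import Mathlib
import Fermat.Agent.S24.ANDefs
import Fermat.Agent.S29.DictC.Defs
import Fermat.Agent.S29.DictC.FracRingA
import Fermat.Agent.S29.DictC.PointOrd
import Fermat.Agent.S29.DictC.PointPlace
import Fermat.Agent.S24.JLocal
import Fermat.Agent.S24.Comb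

set_option autoImplicit false

namespace Fermat.Agent.S29.DictC

open Fermat.Agent.S24

open AlgebraicCurve CongruenceSubgroup
open UpperHalfPlane hiding I
open Complex Filter Function
open scoped Topology Manifold MatrixGroups

/-! ### Divisibility of the orders of invariant functions at the elliptic points -/

lemma anE_meromorphicOrderAt_eq {G : ℂ → ℂ} {w : ℂ} (hG : AnalyticAt ℂ G w)
    (hne : analyticOrderAt G w ≠ ⊤) :
    meromorphicOrderAt G w = (((analyticOrderAt G w).toNat : ℤ) : WithTop ℤ) := by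
  rw [hG.meromorphicOrderAt_eq]
  conv_lhs => rw [← ENat.natCast_toNat hne]
  rfl

lemma anE_mob_S {w : ℂ} (hw : 0 < w.im) : anE_mob ModularGroup.S w = -w⁻¹ := by
  unfold anE_mob
  rw [modular_S_smul, ofComplex_apply_of_im_pos hw]
  simp only
  rw [inv_neg]

lemma anE_mob_ST {w : ℂ} (hw : 0 < w.im) :
    anE_mob (ModularGroup.S * ModularGroup.T) w = -(w + 1)⁻¹ := by
  unfold anE_mob
  rw [mul_smul, modular_T_smul, modular_S_smul]
  rw [ofComplex_apply_of_im_pos hw]
  simp only [UpperHalfPlane.coe_vadd, ofReal_one]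
  rw [inv_neg, add_comm]

lemma anE_comp_ofComplex_mob (g : ℍ → ℂ) (γ : SL(2, ℤ)) (w : ℂ) :
    (g ∘ ofComplex) (anE_mob γ w) = g (γ • ofComplex w) := by
  simp [anE_mob]

/-- An `S`-invariant holomorphic function has even order at `i`. -/
lemma anE_even_ordAt_I {g : ℍ → ℂ} (hg : MDiff g)
    (hinv : ∀ z : ℍ, g (ModularGroup.S • z) = g z) (hne : ordAt g UpperHalfPlane.I ≠ ⊤) :
    (2 : ℤ) ∣ ((ordAt g UpperHalfPlane.I).toNat : ℤ) := by
  have hG : AnalyticAt ℂ (g ∘ ofComplex) Complex.I := by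
    have := anE_analyticAt hg UpperHalfPlane.I
    rwa [UpperHalfPlane.coe_I] at this
  have hne' : analyticOrderAt (g ∘ ofComplex) Complex.I ≠ ⊤ := by
    have := hne
    unfold ordAt at this
    rwa [UpperHalfPlane.coe_I] at this
  have hinv' : ∀ᶠ w in 𝓝[≠] Complex.I, (g ∘ ofComplex) (-w⁻¹) = (g ∘ ofComplex) w := by
    apply eventually_nhdsWithin_of_eventually_nhds
    have hI : (0 : ℝ) < Complex.I.im := by simp
    filter_upwards [isOpen_upperHalfPlaneSet.mem_nhds hI] with w hw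
    rw [← anE_mob_S hw, anE_comp_ofComplex_mob, hinv]
    rfl
  have h := anE_even_order_of_S_invariant hG.meromorphicAt
    (anE_meromorphicOrderAt_eq hG hne') hinv'
  have e : (ordAt g UpperHalfPlane.I).toNat = (analyticOrderAt (g ∘ ofComplex) Complex.I).toNat := by
    unfold ordAt
    rw [UpperHalfPlane.coe_I]
  rw [e]
  exact even_iff_two_dvd.mp h

/-- An `S T`-invariant holomorphic function has order divisible by `3` at `ρ`. -/
lemma anE_three_dvd_ordAt_rho {g : ℍ → ℂ} (hg : MDiff g)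
    (hinv : ∀ z : ℍ, g ((ModularGroup.S * ModularGroup.T : SL(2, ℤ)) • z) = g z)
    (hne : ordAt g anE_rho ≠ ⊤) :
    (3 : ℤ) ∣ ((ordAt g anE_rho).toNat : ℤ) := by
  have hG : AnalyticAt ℂ (g ∘ ofComplex) (anE_rho : ℂ) := anE_analyticAt hg anE_rho
  have hinv' : ∀ᶠ w in 𝓝[≠] (anE_rho : ℂ),
      (g ∘ ofComplex) (-(w + 1)⁻¹) = (g ∘ ofComplex) w := by
    apply eventually_nhdsWithin_of_eventually_nhds
    filter_upwards [isOpen_upperHalfPlaneSet.mem_nhds anE_rho.im_pos] with w hw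
    rw [← anE_mob_ST hw, anE_comp_ofComplex_mob, hinv]
    rfl
  exact anE_three_dvd_order_of_ST_invariant hG.meromorphicAt
    (anE_meromorphicOrderAt_eq hG hne) hinv'

/-! ### Fixed cosets -/

lemma anE_conj_mem_of_fixed {N : ℕ} {g γ : SL(2, ℤ)} (h : g • (γ : XN N) = (γ : XN N)) :
    γ⁻¹ * g * γ ∈ Gamma0 N := by
  have h1 : ((g * γ : SL(2, ℤ)) : XN N) = (γ : XN N) := h
  rw [QuotientGroup.eq] at h1
  have h2 := inv_mem h1
  have e : ((g * γ)⁻¹ * γ)⁻¹ = γ⁻¹ * g * γ := by group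
  rwa [e] at h2

section Bridge

variable {N : ℕ} {Θ₀ : ringA N →+* (ℍ → ℂ)} {π : ℂ →+ QBar}

/-- If the coset of `γ` is fixed by `g`, then the S24.translate by `γ⁻¹` of every element of
`ringA N` is `g`-invariant. -/
lemma anE_translate_invariant (hΘ : IsBridge N Θ₀ π) {g γ : SL(2, ℤ)}
    (h : g • (γ : XN N) = (γ : XN N)) (a : ringA N) (z : ℍ) :
    Θ₀ a (γ⁻¹ • g • z) = Θ₀ a (γ⁻¹ • z) := by
  have hmem := anE_conj_mem_of_fixed h
  have e : γ⁻¹ • g • z = (γ⁻¹ * g * γ) • (γ⁻¹ • z) := by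
    rw [← mul_smul, ← mul_smul]
    congr 1
    group
  rw [e]
  exact hΘ.inv a _ hmem _

lemma anE_even_ord_of_fixed (hΘ : IsBridge N Θ₀ π) {γ : SL(2, ℤ)}
    (h : ModularGroup.S • (γ : XN N) = (γ : XN N)) {a : ringA N} (ha : a ≠ 0) :
    (2 : ℤ) ∣ anE_ord Θ₀ (γ⁻¹ • UpperHalfPlane.I) a := by
  unfold anE_ord
  rw [← anE_ordAt_comp_smul]
  refine anE_even_ordAt_I (anE_mdiff_comp_smul (hΘ.holo a) γ⁻¹)
    (fun z => anE_translate_invariant hΘ h a z) ?_
  rw [anE_ordAt_comp_smul]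
  exact anE_ordAt_bridge_ne_top hΘ ha _

lemma anE_three_dvd_ord_of_fixed (hΘ : IsBridge N Θ₀ π) {γ : SL(2, ℤ)}
    (h : (ModularGroup.S * ModularGroup.T : SL(2, ℤ)) • (γ : XN N) = (γ : XN N))
    {a : ringA N} (ha : a ≠ 0) :
    (3 : ℤ) ∣ anE_ord Θ₀ (γ⁻¹ • anE_rho) a := by
  unfold anE_ord
  rw [← anE_ordAt_comp_smul]
  refine anE_three_dvd_ordAt_rho (anE_mdiff_comp_smul (hΘ.holo a) γ⁻¹)
    (fun z => anE_translate_invariant hΘ h a z) ?_
  rw [anE_ordAt_comp_smul]
  exact anE_ordAt_bridge_ne_top hΘ ha _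

/-! ### The ramification index -/

/-- The order of `j - c` at the place at `z` divides its analytic order `e` at `z`, with
cofactor `m` the greatest common divisor of all the analytic orders at `z`. -/
theorem anE_ram_core (hΘ : IsBridge N Θ₀ π) {c : QBar} {z : ℍ} (hz : jfun z = iota c)
    {v : Place QBar (FunField N)} (hv : IsPlaceAt Θ₀ z v) :
    ∃ m : ℕ, 0 < m ∧
      anE_ord Θ₀ z (anE_jSub N c) =
        (m : ℤ) * v.ord (jF N - algebraMap QBar (FunField N) c) ∧
      ∀ d : ℤ, (∀ a : ringA N, a ≠ 0 → d ∣ anE_ord Θ₀ z a) → d ∣ (m : ℤ) := by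
  obtain ⟨v', m, hm, hv', h1, h2⟩ := anE_exists_place hΘ z ⟨c, hz⟩
  obtain rfl : v = v' := anE_place_unique hv hv'
  refine ⟨m, hm, ?_, ?_⟩
  · rw [← anE_coe_jSub]
    exact h2 _ (anE_jSub_ne_zero hΘ hz)
  · intro d hd
    obtain ⟨ϖ, hϖ⟩ := place_exists_irreducible v
    obtain ⟨a, b, hb, hab⟩ := fracA_exists_div N (ϖ : FunField N)
    have hϖ0 : (ϖ : FunField N) ≠ 0 := by
      simpa [ne_eq, ZeroMemClass.coe_eq_zero] using hϖ.ne_zero
    have ha : a ≠ 0 := by
      rintro rfl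
      apply hϖ0
      rw [hab]
      simp
    have h3 := h1 a b ha hb
    rw [← hab, v.ord_coe_irreducible hϖ, mul_one] at h3
    rw [← h3]
    exact dvd_sub (hd a ha) (hd b hb)

/-- (AN-E3 generic) -/
theorem ramGeneric : RamGenericStatement := by
  intro N _ Θ₀ π hΘ c z₀ hz₀ hc0 hc1 P hP x
  induction x using QuotientGroup.induction_on with
  | H γ =>
    have hv := hP γ
    have hz : jfun (γ⁻¹ • z₀) = iota c := by rw [jfun_smul]; exact hz₀
    obtain ⟨m, hm, h1, -⟩ := anE_ram_core hΘ hz hv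
    have h0 : jfun (γ⁻¹ • z₀) ≠ 0 := by
      rw [hz]
      exact anE_iota_ne_zero hc0
    have h1728 : jfun (γ⁻¹ • z₀) ≠ 1728 := by
      rw [hz]
      intro h
      apply hc1
      apply iota.injective
      rw [h, map_ofNat]
    rw [anE_ord_jSub hΘ hz, if_neg h0, if_neg h1728] at h1
    by_contra hcon
    rw [not_le] at hcon
    have hm' : (1 : ℤ) ≤ m := by exact_mod_cast hm
    nlinarith

lemma anE_card_orbit_pos {N : ℕ} [NeZero N] (g : SL(2, ℤ)) (x : XN N) :
    (1 : ℤ) ≤ (Nat.card (MulAction.orbit (Subgroup.zpowers g) x) : ℤ) := by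
  have : 0 < Nat.card (MulAction.orbit (Subgroup.zpowers g) x) := by
    rw [Nat.card_coe_set_eq, Set.ncard_pos (Set.toFinite _)]
    exact ⟨x, MulAction.mem_orbit_self x⟩
  exact_mod_cast this

lemma anE_smul_mem_orbit {N : ℕ} (g : SL(2, ℤ)) (k : ℕ) (x : XN N) :
    g ^ k • x ∈ MulAction.orbit (Subgroup.zpowers g) x :=
  ⟨⟨g ^ k, Subgroup.pow_mem _ (Subgroup.mem_zpowers g) k⟩, rfl⟩

lemma anE_card_orbit_two {N : ℕ} [NeZero N] {g : SL(2, ℤ)} {x : XN N} (h : g • x ≠ x) :
    (2 : ℤ) ≤ (Nat.card (MulAction.orbit (Subgroup.zpowers g) x) : ℤ) := by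
  have : 1 < Nat.card (MulAction.orbit (Subgroup.zpowers g) x) := by
    rw [Nat.card_coe_set_eq, Set.one_lt_ncard_iff (Set.toFinite _)]
    refine ⟨g • x, x, ?_, MulAction.mem_orbit_self x, h⟩
    simpa using anE_smul_mem_orbit g 1 x
  exact_mod_cast this

lemma anE_card_orbit_three {N : ℕ} [NeZero N] {g : SL(2, ℤ)} {x : XN N} (h : g • x ≠ x)
    (h3 : g ^ 3 • x = x) :
    (3 : ℤ) ≤ (Nat.card (MulAction.orbit (Subgroup.zpowers g) x) : ℤ) := by
  have : 2 < Nat.card (MulAction.orbit (Subgroup.zpowers g) x) := by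
    rw [Nat.card_coe_set_eq, Set.two_lt_ncard_iff (Set.toFinite _)]
    refine ⟨x, g • x, g ^ 2 • x, MulAction.mem_orbit_self x, ?_, anE_smul_mem_orbit g 2 x,
      fun e => h e.symm, ?_, ?_⟩
    · simpa using anE_smul_mem_orbit g 1 x
    · intro e
      apply h
      have : g • (g ^ 2 • x) = g • x := by rw [← e]
      rw [← this, ← mul_smul, ← pow_succ', h3]
    · intro e
      apply h
      have : g⁻¹ • (g • x) = g⁻¹ • (g ^ 2 • x) := by rw [e]
      rw [inv_smul_smul, pow_two, mul_smul, inv_smul_smul] at this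
      exact this.symm
  exact_mod_cast this

/-- (AN-E3 i) -/
theorem ramI : RamIStatement := by
  intro N _ Θ₀ π hΘ P hP x
  induction x using QuotientGroup.induction_on with
  | H γ =>
    have hv := hP γ
    have h1728 : jfun (γ⁻¹ • UpperHalfPlane.I) = 1728 := by rw [jfun_smul, jfun_I]
    have hz : jfun (γ⁻¹ • UpperHalfPlane.I) = iota 1728 := by rw [h1728, map_ofNat]
    obtain ⟨m, hm, h1, h2⟩ := anE_ram_core hΘ hz hv
    have h0 : jfun (γ⁻¹ • UpperHalfPlane.I) ≠ 0 := by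
      rw [h1728]
      norm_num
    rw [anE_ord_jSub hΘ hz, if_neg h0, if_pos h1728] at h1
    have hm' : (1 : ℤ) ≤ m := by exact_mod_cast hm
    by_cases hfix : ModularGroup.S • (γ : XN N) = (γ : XN N)
    · have hd : (2 : ℤ) ∣ (m : ℤ) := h2 2 (fun a ha => anE_even_ord_of_fixed hΘ hfix ha)
      have hm2 : (2 : ℤ) ≤ m := Int.le_of_dvd (by omega) hd
      have hc := anE_card_orbit_pos ModularGroup.S (γ : XN N)
      refine le_trans ?_ hc
      by_contra hcon
      rw [not_le] at hcon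
      nlinarith
    · have hc := anE_card_orbit_two hfix
      refine le_trans ?_ hc
      by_contra hcon
      rw [not_le] at hcon
      nlinarith

/-- (AN-E3 ρ) -/
theorem ramRho : RamRhoStatement := by
  intro N _ Θ₀ π hΘ P hP x
  induction x using QuotientGroup.induction_on with
  | H γ =>
    have hv := hP γ
    have h0 : jfun (γ⁻¹ • anE_rho) = 0 := by rw [jfun_smul, jfun_rho]
    have hz : jfun (γ⁻¹ • anE_rho) = iota 0 := by rw [h0, map_zero]
    obtain ⟨m, hm, h1, h2⟩ := anE_ram_core hΘ hz hv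
    rw [anE_ord_jSub hΘ hz, if_pos h0, map_zero, sub_zero] at h1
    have hm' : (1 : ℤ) ≤ m := by exact_mod_cast hm
    by_cases hfix : elST • (γ : XN N) = (γ : XN N)
    · have hd : (3 : ℤ) ∣ (m : ℤ) := h2 3 (fun a ha => anE_three_dvd_ord_of_fixed hΘ hfix ha)
      have hm3 : (3 : ℤ) ≤ m := Int.le_of_dvd (by omega) hd
      have hc := anE_card_orbit_pos elST (γ : XN N)
      refine le_trans ?_ hc
      by_contra hcon
      rw [not_le] at hcon
      nlinarith
    · have hc := anE_card_orbit_three hfix (Comb.ST_cube_smul N (γ : XN N))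
      refine le_trans ?_ hc
      by_contra hcon
      rw [not_le] at hcon
      nlinarith

end Bridge

end Fermat.Agent.S29.DictC
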