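-- S29 [DICT]: port of Fermat/Agent/S24/SymCuspOrd.lean to the constant field ℂ (see DictC/Defs.lean).
import Mathlib
import Fermat.Agent.S24.ANDefs
import Fermat.Agent.S29.DictC.Defs
import Fermat.Agent.S24.SymOrd
import Fermat.Agent.S24.SymLemmas
import Fermat.Agent.S29.DictC.RingAInt
import Fermat.Agent.S24.FFApprox
import Fermat.Agent.S24.PlaceBasic
import Fermat.Agent.S24.Translate
import Fermat.Agent.S29.DictC.TranslateAN
import Fermat.Agent.S29.DictC.CuspPlace
import Fermat.Agent.S29.DictC.PointPlace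

/-!
# S24 (AN-D), cusp case of the divisibility statement

For `g = a / b(j)` integral over `Q̄[1/j]` and vanishing at all cusps, the coefficients `P k`
of the characteristic polynomial of `Θ₀ a` satisfy `P k * X ^ m = b ^ k * s` with `deg s < m`.
-/

set_option autoImplicit false

open UpperHalfPlane Filter Asymptotics CongruenceSubgroup Polynomial AlgebraicCurve
open scoped MatrixGroups Manifold Topology

noncomputable section

namespace Fermat.Agent.S29.DictC

open Fermat.Agent.S24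

variable {N : ℕ} {Θ₀ : ringA N →+* (ℍ → ℂ)} {π : ℂ →+ QBar}

/-! ### The bridge on polynomials in `j` -/

theorem anDc_bridge_aeval (hΘ : IsBridge N Θ₀ π) (b : QBar[X]) (z : ℍ) :
    Θ₀ (aeval (jA N) b) z = (b.map iota).eval (jfun z) := by
  induction b using Polynomial.induction_on' with
  | add p q hp hq =>
    rw [map_add, map_add, Pi.add_apply, hp, hq, Polynomial.map_add, eval_add]
  | monomial n c =>
    rw [aeval_monomial, map_mul, map_pow, Pi.mul_apply, Pi.pow_apply, hΘ.map_const,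
      anD_bridge_jA hΘ, map_monomial, eval_monomial]

theorem anDc_coe_aeval (b : QBar[X]) :
    ((aeval (jA N) b : ringA N) : FunField N) = aeval (jF N) b := by
  rw [aeval_subalgebra_coe]
  rfl

theorem anDc_iota_injective : Function.Injective iota := iota.injective

theorem anDc_map_ne_zero {b : QBar[X]} (hb : b ≠ 0) : b.map iota ≠ 0 :=
  (Polynomial.map_ne_zero_iff anDc_iota_injective).mpr hb

/-- A nonzero polynomial in `j` does not vanish identically on `ℍ`. -/
theorem anDc_exists_eval_jfun_ne_zero {B : ℂ[X]} (hB : B ≠ 0) : ∃ z : ℍ, B.eval (jfun z) ≠ 0 := by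
  by_contra h
  have h1 : ∀ t : ℂ, B.eval t = 0 := by
    intro t
    obtain ⟨z, rfl⟩ := jfun_surjective t
    by_contra hz
    exact h ⟨z, hz⟩
  exact hB (Polynomial.funext fun t => by rw [h1 t, eval_zero])

theorem anDc_aeval_ne_zero (hΘ : IsBridge N Θ₀ π) {b : QBar[X]} (hb : b ≠ 0) :
    (aeval (jA N) b : ringA N) ≠ 0 := by
  intro h
  obtain ⟨z, hz⟩ := anDc_exists_eval_jfun_ne_zero (anDc_map_ne_zero hb)
  apply hz
  rw [← anDc_bridge_aeval hΘ, h, map_zero]
  rfl

/-! ### Behaviour of polynomials in `j` at `i∞` -/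

theorem anDc_tendsto_eval_div_pow (B : ℂ[X]) :
    Tendsto (fun z : ℍ => B.eval (jfun z) / jfun z ^ B.natDegree) atImInfty
      (𝓝 B.leadingCoeff) := by
  have h1 : Tendsto (fun z : ℍ => (B.reverse).eval ((jfun z)⁻¹)) atImInfty
      (𝓝 ((B.reverse).eval 0)) :=
    ((B.reverse).continuous.tendsto 0).comp sym_tendsto_inv_jfun
  rw [← coeff_zero_eq_eval_zero, coeff_zero_reverse] at h1
  refine h1.congr' ?_
  filter_upwards [sym_eventually_jfun_ne_zero] with z hz
  letI : Invertible (jfun z) := invertibleOfNonzero hz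
  have h2 := eval₂_reverse_mul_pow (RingHom.id ℂ) (jfun z) B
  rw [invOf_eq_inv] at h2
  simp only [eval₂_id] at h2
  rw [← h2, mul_div_assoc, div_self (pow_ne_zero _ hz), mul_one]

/-! ### The finite part: root multiplicities -/

theorem anDc_jA_ne_zero (hΘ : IsBridge N Θ₀ π) : jA N ≠ 0 := by
  have h := anDc_aeval_ne_zero hΘ (b := X) X_ne_zero
  rwa [aeval_X] at h

/-- At a point `z` with `j(z) = t ≠ 0` a root of `b`, the function `Θ₀ a` vanishes at least to
the order of `b(j)`. -/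
theorem anDc_ordAt_ge (hPP : PointPlaceStatement) [NeZero N] (hΘ : IsBridge N Θ₀ π)
    (g : FunField N) (hint : IsIntegral (Algebra.adjoin QBar {(jF N)⁻¹}) g)
    (a : ringA N) (b : QBar[X]) (hb : b ≠ 0) (hg : g * aeval (jF N) b = (a : FunField N))
    (z : ℍ) (hz0 : jfun z ≠ 0) (hroot : (b.map iota).IsRoot (jfun z)) :
    ((b.map iota).rootMultiplicity (jfun z) : ℕ∞) * ordAt (fun w => jfun w - jfun z) z ≤
      ordAt (Θ₀ a) z := by
  obtain ⟨ρ, hρ⟩ := (IsAlgClosed.splits b).mem_range_of_isRoot hb hroot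
  obtain ⟨v, hv⟩ := hPP N Θ₀ π hΘ z ⟨ρ, hρ.symm⟩
  have hbA : (aeval (jA N) b : ringA N) ≠ 0 := anDc_aeval_ne_zero hΘ hb
  have hbF : (aeval (jF N) b : FunField N) ≠ 0 := by
    rw [← anDc_coe_aeval]
    exact fun h => hbA (Subtype.ext h)
  -- `1 / j` is regular at `v`
  have h1 : (jF N)⁻¹ ∈ v.toValuationSubring := by
    have h := hv 1 (jA N) (anDc_jA_ne_zero hΘ)
    have e1 : Θ₀ (jA N) = jfun := funext fun w => anD_bridge_jA hΘ w
    have e2 : ordAt (Θ₀ (jA N)) z = 0 := by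
      rw [e1, anD_ordAt_eq_zero_iff jfun_mdiff]
      exact hz0
    rw [e2] at h
    have h' := h.mpr bot_le
    have e3 : (((1 : ringA N) : FunField N)) / ((jA N : ringA N) : FunField N) = (jF N)⁻¹ := by
      rw [show ((1 : ringA N) : FunField N) = 1 from rfl, one_div]
      rfl
    rwa [e3] at h'
  have h2 : g ∈ v.toValuationSubring := ff3_integral_mem v h1 hint
  have h3 : g = (a : FunField N) / ((aeval (jA N) b : ringA N) : FunField N) := by
    rw [anDc_coe_aeval, eq_div_iff hbF]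
    exact hg
  have h4 : ordAt (Θ₀ (aeval (jA N) b)) z ≤ ordAt (Θ₀ a) z := (hv a _ hbA).mp (h3 ▸ h2)
  have e5 : Θ₀ (aeval (jA N) b) = fun w => (b.map iota).eval (jfun w) :=
    funext fun w => anDc_bridge_aeval hΘ b w
  rw [e5, anD_ordAt_poly_jfun _ (anDc_map_ne_zero hb)] at h4
  exact h4

theorem anDc_ordAt_jfun_sub_smul (γ : SL(2, ℤ)) (z : ℍ) :
    ordAt (fun w => jfun w - jfun (γ • z)) (γ • z) = ordAt (fun w => jfun w - jfun z) z := by
  have h := anD_ordAt_smul (fun w => jfun w - jfun z) γ z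
  simp only [jfun_smul] at h
  rw [jfun_smul, ← h]

theorem anDc_rootMultiplicity_le (hPP : PointPlaceStatement) [NeZero N] [Fintype (XN N)]
    (hΘ : IsBridge N Θ₀ π)
    (g : FunField N) (hint : IsIntegral (Algebra.adjoin QBar {(jF N)⁻¹}) g)
    (a : ringA N) (b : QBar[X]) (hb : b ≠ 0) (hg : g * aeval (jF N) b = (a : FunField N))
    (Pk : ℕ → ℂ[X])
    (hPk : ∀ k z, anD_esymm (anB_tr N (Θ₀ a)) k z = (Pk k).eval (jfun z))
    (k : ℕ) (hk0 : Pk k ≠ 0) (t : ℂ) (ht : t ≠ 0) :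
    k * (b.map iota).rootMultiplicity t ≤ (Pk k).rootMultiplicity t := by
  by_cases hroot : (b.map iota).IsRoot t
  swap
  · rw [rootMultiplicity_eq_zero hroot, mul_zero]
    exact Nat.zero_le _
  obtain ⟨z, rfl⟩ := jfun_surjective t
  obtain ⟨e, he0, he⟩ := anD_ordAt_jfun_sub z
  have hF : ∀ x : XN N, MDiff (anB_tr N (Θ₀ a) x) := fun x => anB_tr_mdiff (hΘ.holo a) x
  have hx : ∀ x : XN N,
      (((b.map iota).rootMultiplicity (jfun z) * e : ℕ) : ℕ∞) ≤ ordAt (anB_tr N (Θ₀ a) x) z := by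
    intro x
    have h1 : anB_tr N (Θ₀ a) x = fun w => Θ₀ a ((Quotient.out x : SL(2, ℤ))⁻¹ • w) := rfl
    rw [h1, anD_ordAt_smul]
    set γ : SL(2, ℤ) := (Quotient.out x : SL(2, ℤ))⁻¹ with hγ
    have h2 := anDc_ordAt_ge hPP hΘ g hint a b hb hg (γ • z) (by rwa [jfun_smul])
      (by rwa [jfun_smul])
    rw [anDc_ordAt_jfun_sub_smul, jfun_smul, he] at h2
    rw [Nat.cast_mul]
    exact h2
  have h3 := anD_le_ordAt_esymm (anB_tr N (Θ₀ a)) hF z _ hx k
  have e4 : anD_esymm (anB_tr N (Θ₀ a)) k = fun w => (Pk k).eval (jfun w) :=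
    funext fun w => hPk k w
  rw [e4, anD_ordAt_poly_jfun _ hk0, he, nsmul_eq_mul] at h3
  have h5 : ((k * ((b.map iota).rootMultiplicity (jfun z) * e) : ℕ) : ℕ∞) ≤
      (((Pk k).rootMultiplicity (jfun z) * e : ℕ) : ℕ∞) := by
    push_cast
    exact h3
  have h6 := Nat.cast_le.mp h5
  rw [← mul_assoc] at h6
  exact Nat.le_of_mul_le_mul_right h6 he0

theorem anDc_pow_dvd (hPP : PointPlaceStatement) [NeZero N] [Fintype (XN N)]
    (hΘ : IsBridge N Θ₀ π)
    (g : FunField N) (hint : IsIntegral (Algebra.adjoin QBar {(jF N)⁻¹}) g)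
    (a : ringA N) (b : QBar[X]) (hb : b ≠ 0) (hg : g * aeval (jF N) b = (a : FunField N))
    (Pk : ℕ → ℂ[X])
    (hPk : ∀ k z, anD_esymm (anB_tr N (Θ₀ a)) k z = (Pk k).eval (jfun z))
    (k : ℕ) (hk0 : Pk k ≠ 0) :
    (b.map iota) ^ k ∣ Pk k * X ^ (k * (b.map iota).rootMultiplicity 0) := by
  classical
  have hB : b.map iota ≠ 0 := anDc_map_ne_zero hb
  have hBk : (b.map iota) ^ k ≠ 0 := pow_ne_zero _ hB
  have hq : Pk k * X ^ (k * (b.map iota).rootMultiplicity 0) ≠ 0 :=
    mul_ne_zero hk0 (pow_ne_zero _ X_ne_zero)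
  refine (IsAlgClosed.splits _).dvd_of_roots_le_roots hBk ?_
  rw [Multiset.le_iff_count]
  intro t
  rw [roots_mul hq, roots_pow, roots_X_pow, Multiset.count_add, Multiset.count_nsmul,
    Multiset.count_nsmul, count_roots, count_roots]
  by_cases ht : t = 0
  · subst ht
    rw [Multiset.count_singleton_self, mul_one]
    exact Nat.le_add_left _ _
  · exact le_trans (anDc_rootMultiplicity_le hPP hΘ g hint a b hb hg Pk hPk k hk0 t ht)
      (Nat.le_add_right _ _)

/-! ### The part at infinity: the degree bound -/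

theorem anDc_esymm_zero_fun {X : Type} [Fintype X] {k : ℕ} (hk : 1 ≤ k) (z : ℍ) :
    anD_esymm (fun (_ : X) (_ : ℍ) => (0 : ℂ)) k z = 0 := by
  rw [anD_esymm]
  refine Finset.sum_eq_zero fun t ht => ?_
  have hcard : t.card = k := (Finset.mem_powersetCard.mp ht).2
  have hne : t.Nonempty := by
    rw [← Finset.card_pos, hcard]
    exact hk
  obtain ⟨x, hx⟩ := hne
  exact Finset.prod_eq_zero hx rfl

theorem anDc_tendsto_esymm_div {X : Type} [Fintype X] (F : X → ℍ → ℂ) (h : ℍ → ℂ)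
    (hF : ∀ x, Tendsto (fun z => F x z / h z) atImInfty (𝓝 0)) {k : ℕ} (hk : 1 ≤ k) :
    Tendsto (fun z => anD_esymm F k z / h z ^ k) atImInfty (𝓝 0) := by
  have e : (fun z => anD_esymm F k z / h z ^ k) = fun z =>
      ∑ t ∈ Finset.powersetCard k (Finset.univ : Finset X), ∏ x ∈ t, (F x z / h z) := by
    funext z
    rw [anD_esymm, Finset.sum_div]
    refine Finset.sum_congr rfl fun t ht => ?_
    have hcard : t.card = k := (Finset.mem_powersetCard.mp ht).2
    rw [Finset.prod_div_distrib, Finset.prod_const, hcard]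
  rw [e]
  have h0 : (0 : ℂ) = ∑ _t ∈ Finset.powersetCard k (Finset.univ : Finset X), (0 : ℂ) := by
    rw [Finset.sum_const_zero]
  rw [h0]
  refine tendsto_finsetSum _ fun t ht => ?_
  have hcard : t.card = k := (Finset.mem_powersetCard.mp ht).2
  have h1 : Tendsto (fun z => ∏ x ∈ t, (F x z / h z)) atImInfty (𝓝 (∏ _x ∈ t, (0 : ℂ))) :=
    tendsto_finsetProd _ fun x _ => hF x
  rw [Finset.prod_const, hcard, zero_pow (by omega)] at h1
  exact h1

theorem anDc_natDegree_lt (hCO : CuspOrdExistsStatement) [NeZero N] [Fintype (XN N)]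
    (hΘ : IsBridge N Θ₀ π) (P : XN N → Place QBar (FunField N)) (hP : IsCuspFamily Θ₀ P)
    (g : FunField N) (hvan : ∀ x, g ∈ (P x).toValuationSubring.nonunits)
    (a : ringA N) (b : QBar[X]) (hb : b ≠ 0) (hg : g * aeval (jF N) b = (a : FunField N))
    (Pk : ℕ → ℂ[X])
    (hPk : ∀ k z, anD_esymm (anB_tr N (Θ₀ a)) k z = (Pk k).eval (jfun z))
    (k : ℕ) (hk : 1 ≤ k) (hk0 : Pk k ≠ 0) :
    (Pk k).natDegree < k * (b.map iota).natDegree := by
  have hB : b.map iota ≠ 0 := anDc_map_ne_zero hb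
  have hbA : (aeval (jA N) b : ringA N) ≠ 0 := anDc_aeval_ne_zero hΘ hb
  have hbF : (aeval (jF N) b : FunField N) ≠ 0 := by
    rw [← anDc_coe_aeval]
    exact fun h => hbA (Subtype.ext h)
  -- `a ≠ 0`
  have ha : a ≠ 0 := by
    rintro rfl
    apply hk0
    have h1 : ∀ z : ℍ, (Pk k).eval (jfun z) = 0 := by
      intro z
      rw [← hPk]
      have e : anB_tr N (Θ₀ (0 : ringA N)) = fun (_ : XN N) (_ : ℍ) => (0 : ℂ) := by
        funext x z
        rw [anB_tr, map_zero]
        rfl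
      rw [e]
      exact anDc_esymm_zero_fun hk z
    by_contra hne
    obtain ⟨z, hz⟩ := anDc_exists_eval_jfun_ne_zero hne
    exact hz (h1 z)
  have haF : (a : FunField N) ≠ 0 := fun h => ha (Subtype.ext h)
  have hg0 : g ≠ 0 := by
    rintro rfl
    rw [zero_mul] at hg
    exact haF hg.symm
  have hginv : g⁻¹ = ((aeval (jA N) b : ringA N) : FunField N) / (a : FunField N) := by
    rw [anDc_coe_aeval, ← hg]
    field_simp
  -- every S24.translate divided by `b(j)` tends to `0`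
  have hx : ∀ x : XN N, Tendsto
      (fun z => anB_tr N (Θ₀ a) x z / (b.map iota).eval (jfun z)) atImInfty (𝓝 0) := by
    intro x
    set γ : SL(2, ℤ) := (Quotient.out x : SL(2, ℤ)) with hγ
    have hγx : (QuotientGroup.mk γ : XN N) = x := QuotientGroup.out_eq' x
    have hPl : IsPlaceAtCusp Θ₀ γ (P x) := hγx ▸ hP γ
    obtain ⟨m, hm⟩ := hCO N Θ₀ π hΘ a γ ha
    obtain ⟨n, hn⟩ := hCO N Θ₀ π hΘ (aeval (jA N) b) γ hbA
    have h1 := hPl (aeval (jA N) b) a n m hn hm
    have h2 : g⁻¹ ∉ (P x).toValuationSubring :=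
      place_not_mem_of_inv_mem_nonunits (P x) (inv_ne_zero hg0) (by rw [inv_inv]; exact hvan x)
    rw [hginv] at h2
    have h3 : n < m := by
      by_contra hcon
      exact h2 (h1.mpr (not_lt.mp hcon))
    have h4 := sym_tendsto_div_of_lt hm hn h3
    refine h4.congr fun z => ?_
    have e1 : S24.translate (Θ₀ a) γ z = anB_tr N (Θ₀ a) x z := rfl
    have e2 : S24.translate (Θ₀ (aeval (jA N) b)) γ z = (b.map iota).eval (jfun z) := by
      rw [S24.translate, anDc_bridge_aeval hΘ, jfun_smul]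
    rw [e1, e2]
  have h5 := anDc_tendsto_esymm_div (anB_tr N (Θ₀ a)) (fun z => (b.map iota).eval (jfun z)) hx hk
  simp only [hPk] at h5
  -- compare with powers of `j`
  have h6 := (anDc_tendsto_eval_div_pow (b.map iota)).pow k
  have h7 := h5.mul h6
  rw [zero_mul] at h7
  refine sym_natDegree_lt_of_tendsto (Pk k) hk0 _ (h7.congr' ?_)
  have hlc : (b.map iota).leadingCoeff ≠ 0 := leadingCoeff_ne_zero.mpr hB
  have h8 : ∀ᶠ z : ℍ in atImInfty,
      (b.map iota).eval (jfun z) / jfun z ^ (b.map iota).natDegree ≠ 0 :=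
    (anDc_tendsto_eval_div_pow (b.map iota)).eventually_ne hlc
  filter_upwards [h8, sym_eventually_jfun_ne_zero] with z hz1 hz2
  have hz3 : (b.map iota).eval (jfun z) ≠ 0 := fun h => hz1 (by rw [h, zero_div])
  rw [pow_mul', div_pow, div_mul_div_cancel₀ (pow_ne_zero k hz3)]

/-! ### The cusp case of the divisibility statement -/

/-- (AN-D, cusp case) -/
theorem anDc_cusp_dvd (hPP : PointPlaceStatement) (hCO : CuspOrdExistsStatement)
    [NeZero N] [Fintype (XN N)] (hΘ : IsBridge N Θ₀ π)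
    (P : XN N → Place QBar (FunField N)) (hP : IsCuspFamily Θ₀ P)
    (g : FunField N) (hint : IsIntegral (Algebra.adjoin QBar {(jF N)⁻¹}) g)
    (hvan : ∀ x, g ∈ (P x).toValuationSubring.nonunits)
    (a : ringA N) (b : QBar[X]) (hb : b ≠ 0) (hg : g * aeval (jF N) b = (a : FunField N))
    (Pk : ℕ → ℂ[X])
    (hPk : ∀ k z, anD_esymm (anB_tr N (Θ₀ a)) k z = (Pk k).eval (jfun z)) :
    ∀ k, 1 ≤ k → ∃ (m : ℕ) (s : ℂ[X]),
      Pk k * X ^ m = (b.map iota) ^ k * s ∧ s.natDegree < m := by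
  intro k hk
  by_cases hk0 : Pk k = 0
  · exact ⟨1, 0, by rw [hk0, zero_mul, mul_zero], by simp⟩
  have hB : b.map iota ≠ 0 := anDc_map_ne_zero hb
  obtain ⟨s, hs⟩ := anDc_pow_dvd hPP hΘ g hint a b hb hg Pk hPk k hk0
  refine ⟨_, s, hs, ?_⟩
  have hdeg := anDc_natDegree_lt hCO hΘ P hP g hvan a b hb hg Pk hPk k hk hk0
  have hs0 : s ≠ 0 := by
    rintro rfl
    rw [mul_zero] at hs
    exact mul_ne_zero hk0 (pow_ne_zero _ X_ne_zero) hs
  have h1 := congrArg natDegree hs
  rw [natDegree_mul hk0 (pow_ne_zero _ X_ne_zero), natDegree_X_pow,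
    natDegree_mul (pow_ne_zero _ hB) hs0, natDegree_pow] at h1
  omega

/-- (AN-D, cusp case), with the two proved inputs plugged in. -/
theorem anDc_cusp_dvd' [NeZero N] [Fintype (XN N)] (hΘ : IsBridge N Θ₀ π)
    (P : XN N → Place QBar (FunField N)) (hP : IsCuspFamily Θ₀ P)
    (g : FunField N) (hint : IsIntegral (Algebra.adjoin QBar {(jF N)⁻¹}) g)
    (hvan : ∀ x, g ∈ (P x).toValuationSubring.nonunits)
    (a : ringA N) (b : QBar[X]) (hb : b ≠ 0) (hg : g * aeval (jF N) b = (a : FunField N))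
    (Pk : ℕ → ℂ[X])
    (hPk : ∀ k z, anD_esymm (anB_tr N (Θ₀ a)) k z = (Pk k).eval (jfun z)) :
    ∀ k, 1 ≤ k → ∃ (m : ℕ) (s : ℂ[X]),
      Pk k * X ^ m = (b.map iota) ^ k * s ∧ s.natDegree < m :=
  anDc_cusp_dvd pointPlace (anF_cuspOrdExists anB_growth) hΘ P hP g hint hvan a b hb hg Pk hPk

end Fermat.Agent.S29.DictC
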