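-- S29 [DICT]: port of Fermat/Agent/S24/SymFrac.lean to the constant field ℂ (see DictC/Defs.lean).
/-
S24 (AN-D, SA1): every element of the function field is `a / b(j)` with `a ∈ ringA N` and
`b ∈ Q̄[X]`, `b ≠ 0`.
Owner: helper22.
-/
import Mathlib
import Fermat.Agent.S24.Defs
import Fermat.Agent.S29.DictC.Defs
import Fermat.Agent.S24.ANDefs
import Fermat.Agent.S29.DictC.RingAInt
import Fermat.Agent.S29.DictC.TranslateAN
import Fermat.Agent.S29.DictC.FracRingA
import Fermat.Agent.S29.DictC.Bridge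
import Fermat.Agent.S29.DictC.SymFinal

set_option autoImplicit false
set_option linter.unusedSectionVars false
set_option linter.style.haveILetI false

noncomputable section

namespace Fermat.Agent.S29.DictC

open Fermat.Agent.S24

open AlgebraicCurve IntermediateField UpperHalfPlane Polynomial
open scoped MatrixGroups

/-- A nonzero element of a field, integral over a subalgebra `R`, divides a nonzero element
of `R` inside `R[x]`: `x * d = c` with `c ∈ R`, `c ≠ 0` and `d ∈ S` for every subalgebra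
`S ⊇ R` containing `x`. -/
theorem symFr_exists_mul_eq {K F : Type*} [Field K] [Field F] [Algebra K F]
    (R S : Subalgebra K F) (hRS : R ≤ S) (x : F) (hxS : x ∈ S) (hx0 : x ≠ 0)
    (hx : IsIntegral R x) :
    ∃ c d : F, c ∈ R ∧ c ≠ 0 ∧ d ∈ S ∧ x * d = c := by
  obtain ⟨f, hfm, hf⟩ := hx
  have hf0 : f ≠ 0 := hfm.ne_zero
  obtain ⟨q, hfq, hq⟩ := Polynomial.exists_eq_pow_rootMultiplicity_mul_and_not_dvd f hf0 0
  rw [hfq, Polynomial.eval₂_mul, Polynomial.eval₂_pow, Polynomial.eval₂_sub,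
    Polynomial.eval₂_X, Polynomial.eval₂_C, map_zero, sub_zero] at hf
  have hq0 : Polynomial.eval₂ (algebraMap R F) x q = 0 :=
    (mul_eq_zero.mp hf).resolve_left (pow_ne_zero _ hx0)
  have hc : q.coeff 0 ≠ 0 := by
    intro h
    apply hq
    rw [map_zero, sub_zero]
    exact Polynomial.X_dvd_iff.mpr h
  have hsplit : q = Polynomial.X * q.divX + Polynomial.C (q.coeff 0) :=
    (Polynomial.X_mul_divX_add q).symm
  rw [hsplit, Polynomial.eval₂_add, Polynomial.eval₂_mul, Polynomial.eval₂_X,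
    Polynomial.eval₂_C] at hq0
  refine ⟨algebraMap R F (q.coeff 0), -Polynomial.eval₂ (algebraMap R F) x q.divX,
    (q.coeff 0).2, ?_, ?_, ?_⟩
  · intro h
    apply hc
    exact Subtype.ext h
  · refine neg_mem ?_
    rw [Polynomial.eval₂_eq_sum_range]
    refine Subalgebra.sum_mem _ fun i _ => ?_
    exact mul_mem (hRS (q.divX.coeff i).2) (pow_mem hxS i)
  · rw [mul_neg]
    exact (eq_neg_of_add_eq_zero_left hq0).symm ▸ (neg_neg _)

theorem symFr_adjoin_le (N : ℕ) : Algebra.adjoin QBar {jF N} ≤ ringA N := by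
  refine Algebra.adjoin_le ?_
  rintro x rfl
  exact (jA N).2

/-- **(SA1)** -/
theorem symFr_frac : FracStatement := by
  intro N _ g
  obtain ⟨Θ₀, π, hΘ⟩ := bridge N
  obtain ⟨a', b', hb', hg⟩ := fracA_exists_div N g
  have hb0 : (b' : FunField N) ≠ 0 := fun h => hb' (Subtype.ext h)
  have hint := anD_ringAIntegral anB_growth N Θ₀ π hΘ b'
  obtain ⟨c, d, hcR, hc0, hdS, hcd⟩ :=
    symFr_exists_mul_eq (Algebra.adjoin QBar {jF N}) (ringA N) (symFr_adjoin_le N)
      (b' : FunField N) b'.2 hb0 hint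
  rw [Algebra.adjoin_singleton_eq_range_aeval] at hcR
  obtain ⟨p, hp⟩ := hcR
  have hp' : aeval (jF N) p = c := hp
  refine ⟨a' * ⟨d, hdS⟩, p, ?_, ?_⟩
  · rintro rfl
    apply hc0
    rw [← hp', map_zero]
  · rw [hp', ← hcd, hg]
    simp only [MulMemClass.coe_mul]
    field_simp

end Fermat.Agent.S29.DictC
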