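-- S29 [DICT]: port of Fermat/Agent/S24/SymPoint.lean to the constant field ℂ (see DictC/Defs.lean).
import Mathlib
import Fermat.Agent.S24.ANDefs
import Fermat.Agent.S29.DictC.Defs
import Fermat.Agent.S29.DictC.RingAInt
import Fermat.Agent.S24.SymOrd
import Fermat.Agent.S24.PlaceBasic
import Fermat.Agent.S24.FFApprox
import Fermat.Agent.S29.DictC.CoordAlg

/-!
# S24 (AN-D): the divisibility statement over a finite point

`anD_point_dvd`: if `g = a / b(j)` is integral over `Q̄[j - c]` and vanishes at all places of a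
point family over `j = c`, then `(b.map iota)^k * (X - C (iota c))` divides the `k`-th
coefficient polynomial of the characteristic polynomial of `Θ₀ a`, for all `k ≥ 1`.
-/

set_option autoImplicit false

open UpperHalfPlane Filter Asymptotics CongruenceSubgroup Polynomial AlgebraicCurve
open scoped MatrixGroups Manifold Topology

noncomputable section

namespace Fermat.Agent.S29.DictC

open Fermat.Agent.S24

section Core

variable {N : ℕ} {Θ₀ : ringA N →+* (ℍ → ℂ)} {π : ℂ →+ QBar}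

/-- `Θ₀ (b(j)) = (b.map iota) ∘ jfun`. -/
theorem anD_bridge_aeval (hΘ : IsBridge N Θ₀ π) (b : QBar[X]) (z : ℍ) :
    Θ₀ (Polynomial.aeval (jA N) b) z = (b.map iota).eval (jfun z) := by
  rw [Polynomial.aeval_eq_sum_range, map_sum, Finset.sum_apply, Polynomial.eval_map,
    Polynomial.eval₂_eq_sum_range]
  refine Finset.sum_congr rfl fun i _ => ?_
  rw [Algebra.smul_def, map_mul, map_pow, Pi.mul_apply, Pi.pow_apply, hΘ.map_const,
    anD_bridge_jA hΘ]

theorem anD_bridge_aeval_fun (hΘ : IsBridge N Θ₀ π) (b : QBar[X]) :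
    Θ₀ (Polynomial.aeval (jA N) b) = fun z => (b.map iota).eval (jfun z) :=
  funext fun z => anD_bridge_aeval hΘ b z

theorem anD_coe_aeval (b : QBar[X]) :
    ((Polynomial.aeval (jA N) b : ringA N) : FunField N) = Polynomial.aeval (jF N) b :=
  (Subalgebra.aeval_coe (ringA N) (jA N) b).symm

theorem anD_aeval_ne_zero [NeZero N] {b : QBar[X]} (hb : b ≠ 0) :
    (Polynomial.aeval (jA N) b : ringA N) ≠ 0 := by
  intro h
  have h1 : Polynomial.aeval (jF N) b = 0 := by
    rw [← anD_coe_aeval, h]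
    rfl
  exact hb ((transcendental_iff.mp (coord_jTranscendental N)) b h1)

/-- The order of `b(j)` is invariant under `SL(2,ℤ)`. -/
theorem anD_ordAt_poly_smul (q : ℂ[X]) (γ : SL(2, ℤ)) (z : ℍ) :
    ordAt (fun w => q.eval (jfun w)) (γ • z) = ordAt (fun w => q.eval (jfun w)) z := by
  rw [← anD_ordAt_smul]
  simp only [jfun_smul]

/-- Roots of `b.map iota` are images of roots of `b`. -/
theorem anD_exists_of_root_map {b : QBar[X]} (hb : b ≠ 0) {t : ℂ}
    (ht : (b.map iota).eval t = 0) : ∃ c : QBar, iota c = t := by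
  have hbt : b.map iota ≠ 0 := (Polynomial.map_ne_zero_iff iota.injective).2 hb
  have hmem : t ∈ (b.map iota).roots := (Polynomial.mem_roots hbt).2 ht
  rw [(IsAlgClosed.splits b).roots_map iota] at hmem
  obtain ⟨c, -, hc⟩ := Multiset.mem_map.mp hmem
  exact ⟨c, hc⟩

/-- Membership in the valuation ring of a place at a point, for `g = a / d`. -/
theorem anD_place_mem_iff {w : ℍ} {v : Place QBar (FunField N)} (hv : IsPlaceAt Θ₀ w v)
    (g : FunField N) (a d : ringA N) (hd : d ≠ 0)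
    (hg : g * (d : FunField N) = (a : FunField N)) :
    g ∈ v.toValuationSubring ↔ ordAt (Θ₀ d) w ≤ ordAt (Θ₀ a) w := by
  have hd' : (d : FunField N) ≠ 0 := fun h => hd (Subtype.ext h)
  have : g = (a : FunField N) / (d : FunField N) := by
    rw [eq_div_iff hd']
    exact hg
  rw [this]
  exact hv a d hd

theorem anD_jF_mem {w : ℍ} {v : Place QBar (FunField N)} (hΘ : IsBridge N Θ₀ π)
    (hv : IsPlaceAt Θ₀ w v) : jF N ∈ v.toValuationSubring := by
  rw [anD_place_mem_iff hv (jF N) (jA N) 1 one_ne_zero (by simp; rfl)]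
  have h1 : ordAt (Θ₀ 1) w = 0 := by
    rw [anD_ordAt_eq_zero_iff (hΘ.holo 1), map_one]
    exact one_ne_zero
  rw [h1]
  exact zero_le

/-- **Core multiplicity inequality.**  If at the point `z` every S24.translate of `Θ₀ a` vanishes to
order at least `k • m`-compatible bound `m`, then `k • m ≤ mult_{j z}(Pk k) * ord_z (j - j z)`. -/
theorem anD_smul_le_mult [Fintype (XN N)] (hΘ : IsBridge N Θ₀ π) (a : ringA N)
    (Pk : ℕ → ℂ[X]) (hPk : ∀ k z, anD_esymm (anB_tr N (Θ₀ a)) k z = (Pk k).eval (jfun z))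
    (k : ℕ) (hp : Pk k ≠ 0) (z : ℍ) (m : ℕ∞)
    (h : ∀ x : XN N, m ≤ ordAt (Θ₀ a) ((Quotient.out x : SL(2, ℤ))⁻¹ • z)) :
    k • m ≤ ((Pk k).rootMultiplicity (jfun z) : ℕ∞) * ordAt (fun w => jfun w - jfun z) z := by
  rw [← anD_ordAt_poly_jfun (Pk k) hp z]
  have e : (fun w => (Pk k).eval (jfun w)) = anD_esymm (anB_tr N (Θ₀ a)) k :=
    funext fun w => (hPk k w).symm
  rw [e]
  refine anD_le_ordAt_esymm (anB_tr N (Θ₀ a)) (fun x => anB_tr_mdiff (hΘ.holo a) x) z m
    (fun x => ?_) k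
  have e2 : anB_tr N (Θ₀ a) x = fun w => Θ₀ a ((Quotient.out x : SL(2, ℤ))⁻¹ • w) := rfl
  rw [e2, anD_ordAt_smul]
  exact h x

/-- If `Pk k ≠ 0` for some `k ≥ 1` then `a ≠ 0`. -/
theorem anD_ne_zero_of_Pk_ne_zero [Fintype (XN N)] (a : ringA N)
    (Pk : ℕ → ℂ[X]) (hPk : ∀ k z, anD_esymm (anB_tr N (Θ₀ a)) k z = (Pk k).eval (jfun z))
    {k : ℕ} (hk : 1 ≤ k) (hp : Pk k ≠ 0) : a ≠ 0 := by
  rintro rfl
  apply hp
  apply Polynomial.funext
  intro t
  obtain ⟨z, rfl⟩ := jfun_surjective t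
  rw [← hPk k z, Polynomial.eval_zero, anD_esymm]
  refine Finset.sum_eq_zero fun s hs => ?_
  have hcard : s.card = k := (Finset.mem_powersetCard.mp hs).2
  have hne : s.Nonempty := Finset.card_pos.mp (by omega)
  obtain ⟨x, hx⟩ := hne
  refine Finset.prod_eq_zero hx ?_
  simp [anB_tr]

/-- (K1) If `g = a / b(j)` is regular at every place at the point `w`, then
`ord_w (b(j)) ≤ ord_w (Θ₀ a)`. -/
theorem anD_ord_le_of_regular (hPP : PointPlaceStatement) [NeZero N] (hΘ : IsBridge N Θ₀ π)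
    (g : FunField N) (a : ringA N)
    (b : QBar[X]) (hb : b ≠ 0) (hg : g * Polynomial.aeval (jF N) b = (a : FunField N)) (w : ℍ)
    (hreg : ∀ v : Place QBar (FunField N), IsPlaceAt Θ₀ w v → g ∈ v.toValuationSubring) :
    ordAt (fun z => (b.map iota).eval (jfun z)) w ≤ ordAt (Θ₀ a) w := by
  have hd : (Polynomial.aeval (jA N) b : ringA N) ≠ 0 := anD_aeval_ne_zero hb
  have hgd : g * ((Polynomial.aeval (jA N) b : ringA N) : FunField N) = (a : FunField N) := by
    rw [anD_coe_aeval]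
    exact hg
  have hB := anD_bridge_aeval_fun hΘ b
  by_cases hw : (b.map iota).eval (jfun w) = 0
  · obtain ⟨c', hc'⟩ := anD_exists_of_root_map hb hw
    obtain ⟨v, hv⟩ := hPP N Θ₀ π hΘ w ⟨c', hc'.symm⟩
    rw [← hB]
    exact (anD_place_mem_iff hv g a _ hd hgd).1 (hreg v hv)
  · have hmd : MDiff (fun z => (b.map iota).eval (jfun z)) := by
      rw [← hB]
      exact hΘ.holo _
    have h0 : ordAt (fun z => (b.map iota).eval (jfun z)) w = 0 := by
      rw [anD_ordAt_eq_zero_iff hmd]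
      exact hw
    rw [h0]
    exact zero_le

/-- (K2) If `g = a / b(j) ≠ 0` vanishes at the place `v` at the point `w`, then
`ord_w (b(j)) < ord_w (Θ₀ a)`. -/
theorem anD_ord_lt_of_vanishes [NeZero N] (hΘ : IsBridge N Θ₀ π) (g : FunField N) (a : ringA N)
    (ha : a ≠ 0) (b : QBar[X]) (hg : g * Polynomial.aeval (jF N) b = (a : FunField N)) (w : ℍ)
    (v : Place QBar (FunField N)) (hv : IsPlaceAt Θ₀ w v)
    (hvan : g ∈ v.toValuationSubring.nonunits) :
    ordAt (fun z => (b.map iota).eval (jfun z)) w + 1 ≤ ordAt (Θ₀ a) w := by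
  have hgd : g * ((Polynomial.aeval (jA N) b : ringA N) : FunField N) = (a : FunField N) := by
    rw [anD_coe_aeval]
    exact hg
  have hB := anD_bridge_aeval_fun hΘ b
  have ha' : (a : FunField N) ≠ 0 := fun h => ha (Subtype.ext h)
  have hg0 : g ≠ 0 := by
    rintro rfl
    rw [zero_mul] at hgd
    exact ha' hgd.symm
  have hnot : g⁻¹ ∉ v.toValuationSubring :=
    place_not_mem_of_inv_mem_nonunits v (inv_ne_zero hg0) (by rw [inv_inv]; exact hvan)
  have hginv : g⁻¹ * (a : FunField N) =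
      ((Polynomial.aeval (jA N) b : ringA N) : FunField N) := by
    rw [← hgd, ← mul_assoc, inv_mul_cancel₀ hg0, one_mul]
  have h1 := (anD_place_mem_iff hv g⁻¹ _ a ha hginv).not.1 hnot
  rw [not_le, hB] at h1
  exact Order.add_one_le_of_lt h1

end Core

section Point

variable {N : ℕ} {Θ₀ : ringA N →+* (ℍ → ℂ)} {π : ℂ →+ QBar}

/-- **(AN-D, point case, analytic half).** -/
theorem anD_point_dvd (hPP : PointPlaceStatement) [NeZero N] [Fintype (XN N)]
    (hΘ : IsBridge N Θ₀ π)
    (c : QBar) (z₀ : ℍ) (hz₀ : jfun z₀ = iota c) (P : XN N → Place QBar (FunField N))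
    (hP : IsPointFamily Θ₀ z₀ P) (g : FunField N)
    (hint : IsIntegral (Algebra.adjoin QBar {jF N - algebraMap QBar (FunField N) c}) g)
    (hvan : ∀ x, g ∈ (P x).toValuationSubring.nonunits)
    (a : ringA N) (b : QBar[X]) (hb : b ≠ 0)
    (hg : g * Polynomial.aeval (jF N) b = (a : FunField N))
    (Pk : ℕ → ℂ[X]) (hPk : ∀ k z, anD_esymm (anB_tr N (Θ₀ a)) k z = (Pk k).eval (jfun z)) :
    ∀ k, 1 ≤ k → (b.map iota) ^ k * (X - C (iota c)) ∣ Pk k := by
  classical
  intro k hk
  by_cases hp : Pk k = 0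
  · rw [hp]
    exact dvd_zero _
  have ha : a ≠ 0 := anD_ne_zero_of_Pk_ne_zero a Pk hPk hk hp
  have hbt : b.map iota ≠ 0 := (Polynomial.map_ne_zero_iff iota.injective).2 hb
  have hq : (b.map iota) ^ k * (X - C (iota c)) ≠ 0 :=
    mul_ne_zero (pow_ne_zero _ hbt) (X_sub_C_ne_zero _)
  -- (K1) at every point
  have hK1 : ∀ w : ℍ, ordAt (fun z => (b.map iota).eval (jfun z)) w ≤ ordAt (Θ₀ a) w := by
    intro w
    refine anD_ord_le_of_regular hPP hΘ g a b hb hg w fun v hv => ?_
    have hu : jF N - algebraMap QBar (FunField N) c ∈ v.toValuationSubring :=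
      sub_mem (anD_jF_mem hΘ hv) (v.algebraMap_mem' c)
    exact ff3_integral_mem v hu hint
  -- (K2) at the points over `z₀`
  have hK2 : ∀ x : XN N,
      ordAt (fun z => (b.map iota).eval (jfun z)) ((Quotient.out x : SL(2, ℤ))⁻¹ • z₀) + 1 ≤
        ordAt (Θ₀ a) ((Quotient.out x : SL(2, ℤ))⁻¹ • z₀) := by
    intro x
    have hv : IsPlaceAt Θ₀ ((Quotient.out x : SL(2, ℤ))⁻¹ • z₀) (P x) := by
      have h := hP (Quotient.out x)
      rwa [QuotientGroup.out_eq'] at h
    exact anD_ord_lt_of_vanishes hΘ g a ha b hg _ (P x) hv (hvan x)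
  rw [IsAlgClosed.dvd_iff_roots_le_roots hq hp, Multiset.le_iff_count]
  intro t
  rw [Polynomial.roots_mul hq, Polynomial.roots_pow, Polynomial.roots_X_sub_C,
    Multiset.count_add, Multiset.count_nsmul, Multiset.count_singleton, count_roots,
    count_roots]
  by_cases ht : t = iota c
  · rw [if_pos ht, ht, ← hz₀]
    obtain ⟨e, he0, he⟩ := anD_ordAt_jfun_sub z₀
    have h1 := anD_smul_le_mult hΘ a Pk hPk k hp z₀
      (ordAt (fun z => (b.map iota).eval (jfun z)) z₀ + 1) (fun x => by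
        have h := hK2 x
        rwa [anD_ordAt_poly_smul] at h)
    rw [anD_ordAt_poly_jfun (b.map iota) hbt z₀, he, nsmul_eq_mul] at h1
    have h2 : k * (rootMultiplicity (jfun z₀) (b.map iota) * e + 1) ≤
        rootMultiplicity (jfun z₀) (Pk k) * e := by
      exact_mod_cast h1
    by_contra hcon
    rw [not_le] at hcon
    have h3 : rootMultiplicity (jfun z₀) (Pk k) ≤ k * rootMultiplicity (jfun z₀) (b.map iota) := by
      omega
    have h4 := Nat.mul_le_mul_right e h3
    nlinarith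
  · rw [if_neg ht, add_zero]
    obtain ⟨z, rfl⟩ := jfun_surjective t
    obtain ⟨e, he0, he⟩ := anD_ordAt_jfun_sub z
    have h1 := anD_smul_le_mult hΘ a Pk hPk k hp z
      (ordAt (fun z => (b.map iota).eval (jfun z)) z) (fun x => by
        have h := hK1 ((Quotient.out x : SL(2, ℤ))⁻¹ • z)
        rwa [anD_ordAt_poly_smul] at h)
    rw [anD_ordAt_poly_jfun (b.map iota) hbt z, he, nsmul_eq_mul] at h1
    have h2 : k * (rootMultiplicity (jfun z) (b.map iota) * e) ≤
        rootMultiplicity (jfun z) (Pk k) * e := by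
      exact_mod_cast h1
    have h3 : (k * rootMultiplicity (jfun z) (b.map iota)) * e ≤
        rootMultiplicity (jfun z) (Pk k) * e := by
      rw [mul_assoc]
      exact h2
    exact Nat.le_of_mul_le_mul_right h3 he0

end Point

end Fermat.Agent.S29.DictC

end
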