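/-
S29 [DICT]: assembly of the analytic package over `ℂ` (port of S24/Final.lean and of the
top-level file of S24).  Owner: helper22.

Everything here is about the function field `FunField N` of `X₀(N)` over `ℂ`
(`= ↥(laurentBaseChange ℂ (modularFunctionFieldFull N))`, the field on whose `Pic0` the Prelude's
`heckeOperatorAlong ℂ N ℓ` acts).
-/
import Mathlib
import Fermat.Agent.S24.Defs
import Fermat.Agent.S24.ANDefs
import Fermat.Agent.S24.FFIdentity
import Fermat.Agent.S24.Count
import Fermat.Agent.S24.CoordDiv
import Fermat.Agent.S29.DictC.Defs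
import Fermat.Agent.S29.DictC.GlueAN
import Fermat.Agent.S29.DictC.Bridge
import Fermat.Agent.S29.DictC.TranslateAN
import Fermat.Agent.S29.DictC.DegreeAN
import Fermat.Agent.S29.DictC.RingAInt
import Fermat.Agent.S29.DictC.CoordAlg
import Fermat.Agent.S29.DictC.CuspPlace
import Fermat.Agent.S29.DictC.PointPlace
import Fermat.Agent.S29.DictC.PointRam
import Fermat.Agent.S29.DictC.SymFinal
import Fermat.Agent.S29.DictC.SymFrac
import Fermat.Agent.S29.DictC.SymPoint
import Fermat.Agent.S29.DictC.SymCuspOrd

set_option autoImplicit false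

noncomputable section

namespace Fermat.Agent.S29.DictC

open Fermat.Agent.S24
open AlgebraicCurve IntermediateField UpperHalfPlane
open scoped MatrixGroups

theorem dc_pointDvd : PointDvdStatement := by
  intro N _ _ Θ₀ π hΘ c z₀ hz₀ P hP g hint hvan a b hb hg Pk hPk
  exact anD_point_dvd pointPlace hΘ c z₀ hz₀ P hP g hint hvan a b hb hg Pk hPk

theorem dc_cuspDvd : CuspDvdStatement := by
  intro N _ _ Θ₀ π hΘ P hP g hint hvan a b hb hg Pk hPk
  exact anDc_cusp_dvd' hΘ P hP g hint hvan a b hb hg Pk hPk

/-- (AN-D) over `ℂ`. -/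
theorem dc_symPoint : SymPointStatement := symF_point symFr_frac dc_pointDvd

/-- (AN-D∞) over `ℂ`. -/
theorem dc_symCusp : SymCuspStatement := symF_cusp symFr_frac dc_cuspDvd

/-- (AN-coord) `j` is a coordinate of the function field of `X₀(N)` over `ℂ`. -/
theorem dc_jCoordinate : JCoordinateStatement :=
  coord_jCoordinate' (anD_ringAIntegral anB_growth) bridge

/-- (AN-G) the degree lower bound over `ℂ`. -/
theorem dc_degreeLowerBound : DegreeLowerBoundStatement :=
  anG_degreeLowerBound bridge dc_jCoordinate

/-- (AN-gen) over `ℂ`. -/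
theorem dc_uniformizedGeneric : UniformizedGenericStatement :=
  glue_uniformizedGeneric bridge jSurjective pointFamily ramGeneric dc_symPoint

/-- (AN-i) over `ℂ`. -/
theorem dc_uniformizedI : UniformizedIStatement :=
  glue_uniformizedI bridge pointFamily ramI dc_symPoint

/-- (AN-ρ) over `ℂ`. -/
theorem dc_uniformizedRho : UniformizedRhoStatement :=
  glue_uniformizedRho bridge pointFamily ramRho dc_symPoint

/-- (AN-∞) over `ℂ`. -/
theorem dc_uniformizedCusp : UniformizedCuspStatement :=
  glue_uniformizedCusp bridge (anF_cuspFamily anB_growth) dc_symCusp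

/-- (COUNT), generic statement of S24. -/
theorem dc_count : CountStatement := count_of_fundamentalIdentity ff_fundamentalIdentity

/-- The function field of `X₀(N)` over `ℂ` has principal divisors. -/
theorem dc_hasPrincipalDivisors (N : ℕ) [NeZero N] :
    HasPrincipalDivisors ℂ (FunField N) :=
  coord_principalDivisor ff_fundamentalIdentity ℂ (FunField N) (jF N) (dc_jCoordinate N)

end Fermat.Agent.S29.DictC
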