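/-
S29 [DICT]: the dictionary at the points of `ℍ`, over `ℂ`: every place of the function field
of `X₀(N)` over `ℂ` at which `j` is regular is the place at a point `z` of `ℍ`, and the
analytic orders at `z` are `m` times the orders at the place, where `m = 1` unless `z` is an
elliptic point of `Γ₀(N)` (`m = 2` at the fixed point of `γ⁻¹ S γ ∈ Γ₀(N)`, `m = 3` at the
fixed point of `γ⁻¹ S T γ ∈ Γ₀(N)`).  Owner: helper22.
-/
import Mathlib
import Fermat.Agent.S24.GlueMain
import Fermat.Agent.S24.DiffFinal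
import Fermat.Agent.S24.Comb
import Fermat.Agent.S29.DictC.Final

set_option autoImplicit false

noncomputable section

namespace Fermat.Agent.S29.DictC

open Fermat.Agent.S24
open AlgebraicCurve IntermediateField UpperHalfPlane CongruenceSubgroup
open scoped MatrixGroups

/-- The concrete bridge over `ℂ`. -/
theorem dict_isBridge (N : ℕ) [NeZero N] : IsBridge N (anA_theta N) (AddMonoidHom.id ℂ) :=
  anA_isBridge N (AddMonoidHom.id ℂ) rfl (fun _ _ => rfl)

section Family

variable {N : ℕ} [NeZero N] {Θ₀ : ringA N →+* (ℍ → ℂ)} {π : ℂ →+ QBar}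

/-- A point family over `j = c` with stabilizer `H` and the ramification bound is complete and
has exact ramification. -/
theorem dict_family_count (hΘ : IsBridge N Θ₀ π) (c : QBar) (z₀ : ℍ) (hz₀ : jfun z₀ = iota c)
    (H : Subgroup SL(2, ℤ)) (hfix : ∀ h ∈ H, h • z₀ = z₀)
    (hram : ∀ P : XN N → Place QBar (FunField N), IsPointFamily Θ₀ z₀ P →
      ∀ x, (P x).ord (jF N - algebraMap QBar (FunField N) c) ≤
        (Nat.card (MulAction.orbit H x) : ℤ)) :
    ∃ P : XN N → Place QBar (FunField N), IsPointFamily Θ₀ z₀ P ∧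
      (∀ v ∈ placesOver QBar (jF N - algebraMap QBar (FunField N) c), ∃ x, P x = v) ∧
      (∀ x, (P x).ord (jF N - algebraMap QBar (FunField N) c) =
        (Nat.card (MulAction.orbit H x) : ℤ)) := by
  have : Finite (XN N) := Comb.comb_cosetFinite N
  obtain ⟨P, hP, hvan, hinv⟩ := pointFamily N Θ₀ π hΘ c z₀ hz₀
  have hU : IsUniformized (jF N - algebraMap QBar (FunField N) c) H P :=
    ⟨hvan, fun h x => hinv h x (hfix h h.2), hram P hP,
      dc_symPoint N Θ₀ π hΘ c z₀ hz₀ P hP⟩
  have hu := glue_isCoordinate_sub (dc_jCoordinate N) c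
  have hdeg : Nat.card (XN N) ≤
      Module.finrank QBar⟮jF N - algebraMap QBar (FunField N) c⟯ (FunField N) := by
    rw [glue_finrank_sub]
    exact dc_degreeLowerBound N
  obtain ⟨hsurj, -, hord, -⟩ := count_main ff_fundamentalIdentity hu hU hdeg
  exact ⟨P, hP, hsurj, hord⟩

/-- The multiplier of the place at `z`: the analytic orders at `z` are `m` times the orders
at the place, and `m * ord_v (j - c) = ord_z (j - j(z))`. -/
theorem dict_multiplier (hΘ : IsBridge N Θ₀ π) {c : QBar} {z : ℍ} (hz : jfun z = iota c)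
    {v : Place QBar (FunField N)} (hv : IsPlaceAt Θ₀ z v) :
    ∃ m : ℕ, 0 < m ∧
      (∀ a b : ringA N, a ≠ 0 → b ≠ 0 →
        anE_ord Θ₀ z a - anE_ord Θ₀ z b =
          (m : ℤ) * v.ord ((a : FunField N) / (b : FunField N))) ∧
      (m : ℤ) * v.ord (jF N - algebraMap QBar (FunField N) c) =
        (if c = 0 then 3 else if c = 1728 then 2 else 1) := by
  obtain ⟨v', m, hm, hv', h3, h4⟩ := anE_exists_place hΘ z ⟨c, hz⟩
  have e : v' = v := anE_place_unique hv' hv
  subst e
  refine ⟨m, hm, h3, ?_⟩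
  have h5 := h4 (anE_jSub N c) (anE_jSub_ne_zero hΘ hz)
  rw [anE_coe_jSub, anE_ord_jSub hΘ hz] at h5
  have hz' : jfun z = c := hz
  rw [hz'] at h5
  rw [← h5]

theorem dict_fixed_of_card_orbit_one {g : SL(2, ℤ)} {x : XN N}
    (h : Nat.card (MulAction.orbit (Subgroup.zpowers g) x) = 1) : g • x = x := by
  have hsub : Subsingleton (MulAction.orbit (Subgroup.zpowers g) x) :=
    (Nat.card_eq_one_iff_unique.mp h).1
  have h1 : g • x ∈ MulAction.orbit (Subgroup.zpowers g) x :=
    ⟨⟨g, Subgroup.mem_zpowers g⟩, rfl⟩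
  have h2 : x ∈ MulAction.orbit (Subgroup.zpowers g) x := MulAction.mem_orbit_self x
  have := hsub.elim ⟨g • x, h1⟩ ⟨x, h2⟩
  exact congrArg Subtype.val this

/-- **The dictionary at the points.**  A place over `j = c` is the place at a point `z` with
`j(z) = c`; the analytic orders at `z` are `m` times the orders at the place, and `m = 1`
unless `z` is an elliptic point of `Γ₀(N)`. -/
theorem dict_point_cases (hΘ : IsBridge N Θ₀ π) (v : Place QBar (FunField N)) (c : QBar)
    (hv : jF N - algebraMap QBar (FunField N) c ∈ v.toValuationSubring.nonunits) :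
    ∃ (z : ℍ) (m : ℕ), 0 < m ∧ jfun z = c ∧ IsPlaceAt Θ₀ z v ∧
      (∀ a b : ringA N, a ≠ 0 → b ≠ 0 →
        anE_ord Θ₀ z a - anE_ord Θ₀ z b =
          (m : ℤ) * v.ord ((a : FunField N) / (b : FunField N))) ∧
      (m = 1 ∨
        (m = 2 ∧ ∃ γ : SL(2, ℤ), z = γ⁻¹ • UpperHalfPlane.I ∧
          γ⁻¹ * ModularGroup.S * γ ∈ Gamma0 N) ∨
        (m = 3 ∧ ∃ γ : SL(2, ℤ), z = γ⁻¹ • anE_rho ∧
          γ⁻¹ * (ModularGroup.S * ModularGroup.T) * γ ∈ Gamma0 N)) := by
  have hmem : v ∈ placesOver QBar (jF N - algebraMap QBar (FunField N) c) := hv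
  by_cases hc0 : c = 0
  · -- `j = 0`
    subst hc0
    have hz₀ : jfun anE_rho = iota 0 := by
      rw [jfun_rho, map_zero]
    obtain ⟨P, hP, hsurj, hord⟩ := dict_family_count hΘ 0 anE_rho hz₀
      (Subgroup.zpowers elST) (glue_zpowers_fix (g := elST) anE_ST_smul_rho)
      (fun P hP x => by
        have := ramRho N Θ₀ π hΘ P hP x
        rwa [map_zero, sub_zero])
    obtain ⟨x, rfl⟩ := hsurj v hmem
    induction x using QuotientGroup.induction_on with
    | H γ =>
      have hz : jfun (γ⁻¹ • anE_rho) = iota 0 := by rw [jfun_smul, hz₀]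
      obtain ⟨m, hm, hdiff, hmul⟩ := dict_multiplier hΘ hz (hP γ)
      rw [if_pos rfl, hord] at hmul
      refine ⟨γ⁻¹ • anE_rho, m, hm, ?_, hP γ, hdiff, ?_⟩
      · rw [hz]; rfl
      · have h3 : m * Nat.card (MulAction.orbit (Subgroup.zpowers elST) (γ : XN N)) = 3 := by
          exact_mod_cast hmul
        have hdvd : m ∣ 3 := Dvd.intro _ h3
        have hm3 : m = 1 ∨ m = 3 := (Nat.dvd_prime Nat.prime_three).mp hdvd
        rcases hm3 with h1 | h1
        · exact Or.inl h1
        · refine Or.inr (Or.inr ⟨h1, γ, rfl, ?_⟩)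
          rw [h1] at h3
          have hcard : Nat.card (MulAction.orbit (Subgroup.zpowers elST) (γ : XN N)) = 1 := by
            omega
          exact anE_conj_mem_of_fixed (dict_fixed_of_card_orbit_one hcard)
  · by_cases hc1 : c = 1728
    · -- `j = 1728`
      subst hc1
      have hz₀ : jfun UpperHalfPlane.I = iota 1728 := by
        rw [jfun_I, glue_iota_ofNat]
      obtain ⟨P, hP, hsurj, hord⟩ := dict_family_count hΘ 1728 UpperHalfPlane.I hz₀
        (Subgroup.zpowers ModularGroup.S) (glue_zpowers_fix anE_S_smul_I)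
        (fun P hP x => ramI N Θ₀ π hΘ P hP x)
      obtain ⟨x, rfl⟩ := hsurj v hmem
      induction x using QuotientGroup.induction_on with
      | H γ =>
        have hz : jfun (γ⁻¹ • UpperHalfPlane.I) = iota 1728 := by rw [jfun_smul, hz₀]
        obtain ⟨m, hm, hdiff, hmul⟩ := dict_multiplier hΘ hz (hP γ)
        rw [if_neg hc0, if_pos rfl, hord] at hmul
        refine ⟨γ⁻¹ • UpperHalfPlane.I, m, hm, ?_, hP γ, hdiff, ?_⟩
        · rw [hz]; rfl
        · have h3 : m * Nat.card (MulAction.orbit (Subgroup.zpowers ModularGroup.S)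
              (γ : XN N)) = 2 := by
            exact_mod_cast hmul
          have hdvd : m ∣ 2 := Dvd.intro _ h3
          have hm3 : m = 1 ∨ m = 2 := (Nat.dvd_prime Nat.prime_two).mp hdvd
          rcases hm3 with h1 | h1
          · exact Or.inl h1
          · refine Or.inr (Or.inl ⟨h1, γ, rfl, ?_⟩)
            rw [h1] at h3
            have hcard : Nat.card (MulAction.orbit (Subgroup.zpowers ModularGroup.S)
                (γ : XN N)) = 1 := by
              omega
            exact anE_conj_mem_of_fixed (dict_fixed_of_card_orbit_one hcard)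
    · -- generic `c`
      obtain ⟨z₀, hz₀⟩ := jSurjective (iota c)
      obtain ⟨P, hP, hsurj, hord⟩ := dict_family_count hΘ c z₀ hz₀
        (⊥ : Subgroup SL(2, ℤ))
        (fun h hh => by
          rw [Subgroup.mem_bot] at hh
          subst hh
          exact one_smul _ _)
        (fun P hP x => by
          have h1 := ramGeneric N Θ₀ π hΘ c z₀ hz₀ hc0 hc1 P hP x
          have h2 : Nat.card (MulAction.orbit (⊥ : Subgroup SL(2, ℤ)) x) = 1 :=
            glue_card_orbit_bot x
          exact h1.trans (le_of_eq (by rw [h2]; rfl)))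
      obtain ⟨x, rfl⟩ := hsurj v hmem
      induction x using QuotientGroup.induction_on with
      | H γ =>
        have hz : jfun (γ⁻¹ • z₀) = iota c := by rw [jfun_smul, hz₀]
        obtain ⟨m, hm, hdiff, hmul⟩ := dict_multiplier hΘ hz (hP γ)
        rw [if_neg hc0, if_neg hc1, hord] at hmul
        have h2 : Nat.card (MulAction.orbit (⊥ : Subgroup SL(2, ℤ)) (γ : XN N)) = 1 :=
          glue_card_orbit_bot _
        rw [h2] at hmul
        refine ⟨γ⁻¹ • z₀, m, hm, ?_, hP γ, hdiff, Or.inl ?_⟩
        · rw [hz]; rfl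
        · have : (m : ℤ) = 1 := by simpa using hmul
          exact_mod_cast this

end Family

end Fermat.Agent.S29.DictC
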