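/-
S29 [DICT]: the dictionary at the cusps, over `ℂ`: every place of the function field of
`X₀(N)` over `ℂ` at which `j` has a pole is the place at a cusp `γ⁻¹ ∞`, the cusp orders
(in the variable `q_N = exp(2πi z / N)`) are `m` times the orders at the place, where
`m * h = N` and `h` is the width of the cusp (`γ⁻¹ T^h γ ∈ Γ₀(N)`).  Owner: helper22.
-/
import Mathlib
import Fermat.Agent.S24.GlueMain
import Fermat.Agent.S24.DiffFinal
import Fermat.Agent.S24.Comb
import Fermat.Agent.S29.DictC.Final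
import Fermat.Agent.S29.DictC.DictPoint

set_option autoImplicit false

noncomputable section

namespace Fermat.Agent.S29.DictC

open Fermat.Agent.S24
open AlgebraicCurve IntermediateField UpperHalfPlane CongruenceSubgroup
open scoped MatrixGroups

section Cusp

variable {N : ℕ} [NeZero N] {Θ₀ : ringA N →+* (ℍ → ℂ)} {π : ℂ →+ QBar}

/-- The multiplier of the place at the cusp `γ⁻¹ ∞`. -/
theorem dict_cusp_multiplier (hΘ : IsBridge N Θ₀ π) (γ : SL(2, ℤ))
    {v : Place QBar (FunField N)} (hv : IsPlaceAtCusp Θ₀ γ v) :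
    ∃ m : ℕ, 0 < m ∧
      (∀ (a b : ringA N) (k l : ℤ), IsCuspOrd N (S24.translate (Θ₀ a) γ) k →
        IsCuspOrd N (S24.translate (Θ₀ b) γ) l →
          k - l = (m : ℤ) * v.ord ((a : FunField N) / (b : FunField N))) ∧
      (m : ℤ) * v.ord (jF N)⁻¹ = (N : ℤ) := by
  classical
  have hG : GrowthStatement := anB_growth
  have hex : ∀ a : ringA N, ∃ m : ℤ, a ≠ 0 → IsCuspOrd N (S24.translate (Θ₀ a) γ) m := by
    intro a
    by_cases ha : a = 0
    · exact ⟨0, fun h => absurd ha h⟩
    · obtain ⟨m, hm⟩ := anF_exists_cuspOrd hG hΘ a γ ha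
      exact ⟨m, fun _ => hm⟩
  choose ord hord using hex
  have huniq : ∀ (a : ringA N) (m : ℤ), IsCuspOrd N (S24.translate (Θ₀ a) γ) m → ord a = m := by
    intro a m hm
    exact anF_isCuspOrd_unique (hord a (anF_ne_zero_of_isCuspOrd hm)) hm
  have hmul : ∀ a b : ringA N, a ≠ 0 → b ≠ 0 → ord (a * b) = ord a + ord b := by
    intro a b ha hb
    apply huniq
    rw [anF_translate_bridge_mul]
    exact anF_isCuspOrd_mul (hord a ha) (hord b hb)
  have hadd : ∀ a b : ringA N, a ≠ 0 → b ≠ 0 → a + b ≠ 0 →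
      min (ord a) (ord b) ≤ ord (a + b) := by
    intro a b ha hb hab
    have h := hord (a + b) hab
    rw [anF_translate_bridge_add] at h
    exact anF_isCuspOrd_add (hord a ha) (hord b hb) h
  have hK : ∀ c : QBar, c ≠ 0 → ord (algebraMap QBar (ringA N) c) = 0 := by
    intro c hc
    apply huniq
    rw [anF_translate_bridge_const hΘ]
    exact anF_isCuspOrd_const N (by simpa using hc)
  have hj : ord (jA N) = -(N : ℤ) := huniq _ _ (anF_isCuspOrd_jA hΘ γ)
  have hN : (0 : ℤ) < N := by exact_mod_cast Nat.pos_of_ne_zero (NeZero.ne N)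
  have hne : ∃ a : ringA N, a ≠ 0 ∧ ord a ≠ 0 :=
    ⟨jA N, anF_jA_ne_zero hΘ, by rw [hj]; omega⟩
  obtain ⟨v', m, hm, hmem, -, hdiff, hval⟩ :=
    fracA_exists_place (ringA N) (fracA_exists_div N) ord hmul hadd hK hne
  have hv' : IsPlaceAtCusp Θ₀ γ v' := by
    intro a b k l hk hl
    have ha := anF_ne_zero_of_isCuspOrd hk
    have hb := anF_ne_zero_of_isCuspOrd hl
    rw [hmem a b ha hb, huniq a k hk, huniq b l hl]
  have e : v' = v := anF_place_unique hG hΘ γ hv' hv
  subst e
  refine ⟨m, hm, ?_, ?_⟩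
  · intro a b k l hk hl
    have ha := anF_ne_zero_of_isCuspOrd hk
    have hb := anF_ne_zero_of_isCuspOrd hl
    rw [← huniq a k hk, ← huniq b l hl]
    exact hdiff a b ha hb
  · have h4 := hdiff 1 (jA N) one_ne_zero (anF_jA_ne_zero hΘ)
    have h5 : ord (1 : ringA N) = 0 := by
      have := hmul 1 1 one_ne_zero one_ne_zero
      rw [mul_one] at this
      omega
    have h6 : ((1 : ringA N) : FunField N) / ((jA N : ringA N) : FunField N) = (jF N)⁻¹ := by
      rw [anF_coe_jA, OneMemClass.coe_one, one_div]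
    rw [h6, h5, hj] at h4
    rw [← h4]
    ring

theorem dict_pow_card_orbit_smul (g : SL(2, ℤ)) (x : XN N) :
    g ^ Nat.card (MulAction.orbit (Subgroup.zpowers g) x) • x = x := by
  have h1 : Nat.card (MulAction.orbit (Subgroup.zpowers g) x) =
      Function.minimalPeriod (g • ·) x := by
    have := Nat.card_congr (MulAction.orbitZPowersEquiv g x)
    rw [Nat.card_zmod] at this
    exact this
  rw [h1]
  exact MulAction.pow_smul_eq_iff_minimalPeriod_dvd.mpr dvd_rfl

/-- **The dictionary at the cusps.**  A place at which `j` has a pole is the place at a cusp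
`γ⁻¹ ∞`; the cusp orders are `m` times the orders at the place, `m * h = N` with `h` the
width of the cusp. -/
theorem dict_cusp_cases (hΘ : IsBridge N Θ₀ π) (v : Place QBar (FunField N))
    (hv : (jF N)⁻¹ ∈ v.toValuationSubring.nonunits) :
    ∃ (γ : SL(2, ℤ)) (m h : ℕ), 0 < m ∧ 0 < h ∧ m * h = N ∧
      γ⁻¹ * ModularGroup.T ^ h * γ ∈ Gamma0 N ∧ IsPlaceAtCusp Θ₀ γ v ∧
      (∀ (a b : ringA N) (k l : ℤ), IsCuspOrd N (S24.translate (Θ₀ a) γ) k →
        IsCuspOrd N (S24.translate (Θ₀ b) γ) l →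
          k - l = (m : ℤ) * v.ord ((a : FunField N) / (b : FunField N))) := by
  have : Finite (XN N) := Comb.comb_cosetFinite N
  have hmem : v ∈ placesOver QBar (jF N)⁻¹ := hv
  obtain ⟨P, hP, hvan, hinv, hram⟩ := anF_cuspFamily anB_growth N Θ₀ π hΘ
  have hU : IsUniformized (jF N)⁻¹ (Subgroup.zpowers ModularGroup.T) P := by
    refine ⟨hvan, ?_, hram, dc_symCusp N Θ₀ π hΘ P hP⟩
    rintro ⟨h, hh⟩ x
    show P (h • x) = P x
    obtain ⟨k, rfl⟩ := Subgroup.mem_zpowers_iff.mp hh
    clear hh
    have hT : ∀ y, P (ModularGroup.T⁻¹ • y) = P y := by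
      intro y
      have := hinv (ModularGroup.T⁻¹ • y)
      rw [smul_inv_smul] at this
      exact this.symm
    induction k using Int.induction_on generalizing x with
    | zero => simp
    | succ n ih =>
      rw [zpow_add_one, mul_smul, ih, hinv]
    | pred n ih =>
      rw [zpow_sub_one, mul_smul, ih, hT]
  have hu := glue_isCoordinate_inv (dc_jCoordinate N)
  have hdeg : Nat.card (XN N) ≤ Module.finrank QBar⟮(jF N)⁻¹⟯ (FunField N) := by
    rw [glue_finrank_inv]
    exact dc_degreeLowerBound N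
  obtain ⟨hsurj, -, hord, -⟩ := count_main ff_fundamentalIdentity hu hU hdeg
  obtain ⟨x, rfl⟩ := hsurj v hmem
  induction x using QuotientGroup.induction_on with
  | H γ =>
    obtain ⟨m, hm, hdiff, hmul⟩ := dict_cusp_multiplier hΘ γ (hP γ)
    rw [hord] at hmul
    have hmul' : m * Nat.card (MulAction.orbit (Subgroup.zpowers ModularGroup.T) (γ : XN N))
        = N := by
      exact_mod_cast hmul
    have hpos : 0 < Nat.card (MulAction.orbit (Subgroup.zpowers ModularGroup.T) (γ : XN N)) := by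
      rcases Nat.eq_zero_or_pos
        (Nat.card (MulAction.orbit (Subgroup.zpowers ModularGroup.T) (γ : XN N))) with h0 | h0
      · rw [h0, mul_zero] at hmul'
        exact absurd hmul'.symm (NeZero.ne N)
      · exact h0
    refine ⟨γ, m, _, hm, hpos, hmul', ?_, hP γ, hdiff⟩
    exact anE_conj_mem_of_fixed (dict_pow_card_orbit_smul ModularGroup.T (γ : XN N))

end Cusp

end Fermat.Agent.S29.DictC
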