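/-
S29 [DICT-DIV]: divisibility of the divisor of an element of the function field of `X₀(N)`
over `ℂ` which is, as a function on `ℍ`, the `n`-th power of a quotient `f / g` of two
holomorphic functions whose quotient is invariant under the elliptic and parabolic elements
of `Γ₀(N)`.  Owner: helper22.
-/
import Mathlib
import Fermat.Agent.S24.DiffFinal
import Fermat.Agent.S29.DictC.DictPoint
import Fermat.Agent.S29.DictC.DictCusp

set_option autoImplicit false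

noncomputable section

namespace Fermat.Agent.S29.DictC

open Fermat.Agent.S24
open AlgebraicCurve IntermediateField UpperHalfPlane CongruenceSubgroup Filter
open scoped MatrixGroups Manifold Topology ModularForm

/-! ### Orders of holomorphic functions on `ℍ` -/

lemma dict_ordAt_pow {f : ℍ → ℂ} (hf : MDiff f) (n : ℕ) (z : ℍ) :
    ordAt (f ^ n) z = n • ordAt f z := by
  unfold ordAt
  have e : (f ^ n) ∘ ofComplex = (f ∘ ofComplex) ^ n := rfl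
  rw [e, analyticOrderAt_pow (anE_analyticAt hf z)]

/-- The order of a nonzero holomorphic function, as an integer. -/
def dict_ord (f : ℍ → ℂ) (z : ℍ) : ℤ := ((ordAt f z).toNat : ℤ)

lemma dict_ordAt_eq {f : ℍ → ℂ} (hf : MDiff f) (hf0 : ∃ z, f z ≠ 0) (z : ℍ) :
    ordAt f z = (((ordAt f z).toNat : ℕ) : ℕ∞) :=
  (ENat.coe_toNat (anE_ordAt_ne_top hf hf0 z)).symm

lemma dict_ord_mul {f g : ℍ → ℂ} (hf : MDiff f) (hg : MDiff g) (hf0 : ∃ z, f z ≠ 0)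
    (hg0 : ∃ z, g z ≠ 0) (z : ℍ) : dict_ord (f * g) z = dict_ord f z + dict_ord g z := by
  unfold dict_ord
  rw [anE_ordAt_mul hf hg, ENat.toNat_add (anE_ordAt_ne_top hf hf0 z)
    (anE_ordAt_ne_top hg hg0 z)]
  push_cast
  rfl

lemma dict_ord_pow {f : ℍ → ℂ} (hf : MDiff f) (n : ℕ) (z : ℍ) :
    dict_ord (f ^ n) z = n * dict_ord f z := by
  unfold dict_ord
  rw [dict_ordAt_pow hf, nsmul_eq_mul, ENat.toNat_mul]
  simp

lemma dict_ord_comp_smul (f : ℍ → ℂ) (γ : SL(2, ℤ)) (z : ℍ) :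
    dict_ord (fun τ => f (γ • τ)) z = dict_ord f (γ • z) := by
  unfold dict_ord
  rw [anE_ordAt_comp_smul]

lemma dict_exists_ne_comp_smul {f : ℍ → ℂ} (hf0 : ∃ z, f z ≠ 0) (γ : SL(2, ℤ)) :
    ∃ z, f (γ • z) ≠ 0 := by
  obtain ⟨z, hz⟩ := hf0
  exact ⟨γ⁻¹ • z, by rwa [smul_inv_smul]⟩

section Bridge

variable {N : ℕ} [NeZero N] {Θ₀ : ringA N →+* (ℍ → ℂ)} {π : ℂ →+ QBar}

lemma dict_bridge_exists_ne (hΘ : IsBridge N Θ₀ π) {a : ringA N} (ha : a ≠ 0) :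
    ∃ z, Θ₀ a z ≠ 0 :=
  fracA_bridge_ne_zero hΘ ha

/-- The comparison of orders at a point. -/
lemma dict_point_eq (hΘ : IsBridge N Θ₀ π) {a b : ringA N} (ha : a ≠ 0) (hb : b ≠ 0)
    {f g : ℍ → ℂ} (hf : MDiff f) (hg : MDiff g) (hf0 : ∃ z, f z ≠ 0) (hg0 : ∃ z, g z ≠ 0)
    (n : ℕ) (hab : ∀ z, Θ₀ a z * g z ^ n = Θ₀ b z * f z ^ n) (z : ℍ) :
    anE_ord Θ₀ z a - anE_ord Θ₀ z b = n * (dict_ord f z - dict_ord g z) := by
  have hfn : ∃ z, (f ^ n) z ≠ 0 := by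
    obtain ⟨w, hw⟩ := hf0
    exact ⟨w, pow_ne_zero n hw⟩
  have hgn : ∃ z, (g ^ n) z ≠ 0 := by
    obtain ⟨w, hw⟩ := hg0
    exact ⟨w, pow_ne_zero n hw⟩
  have e : Θ₀ a * g ^ n = Θ₀ b * f ^ n := funext hab
  have h1 : dict_ord (Θ₀ a * g ^ n) z = dict_ord (Θ₀ b * f ^ n) z := by rw [e]
  rw [dict_ord_mul (hΘ.holo a) (hg.pow n) (dict_bridge_exists_ne hΘ ha) hgn,
    dict_ord_mul (hΘ.holo b) (hf.pow n) (dict_bridge_exists_ne hΘ hb) hfn,
    dict_ord_pow hf, dict_ord_pow hg] at h1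
  have h2 : anE_ord Θ₀ z a = dict_ord (Θ₀ a) z := rfl
  have h3 : anE_ord Θ₀ z b = dict_ord (Θ₀ b) z := rfl
  rw [h2, h3]
  linear_combination h1

end Bridge

/-! ### Elliptic points -/

lemma dict_S_smul_S_smul (z : ℍ) : ModularGroup.S • ModularGroup.S • z = z := by
  rw [← mul_smul]
  have h : (ModularGroup.S * ModularGroup.S : SL(2, ℤ)) = -1 := by
    ext i j
    fin_cases i <;> fin_cases j <;> simp [ModularGroup.S]
  rw [h, ModularGroup.SL_neg_smul, one_smul]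

lemma dict_ST_cube_smul (z : ℍ) :
    (ModularGroup.S * ModularGroup.T : SL(2, ℤ)) • (ModularGroup.S * ModularGroup.T : SL(2, ℤ)) •
      (ModularGroup.S * ModularGroup.T : SL(2, ℤ)) • z = z := by
  rw [← mul_smul, ← mul_smul]
  have h : ((ModularGroup.S * ModularGroup.T) * (ModularGroup.S * ModularGroup.T) *
      (ModularGroup.S * ModularGroup.T) : SL(2, ℤ)) = -1 := by
    ext i j
    fin_cases i <;> fin_cases j <;>
      simp [ModularGroup.S, ModularGroup.T, Matrix.mul_apply, Fin.sum_univ_two]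
  rw [h, ModularGroup.SL_neg_smul, one_smul]

/-- If `f / g` is invariant under `σ = γ⁻¹ S γ`, then `ord f - ord g` is even at the fixed
point `γ⁻¹ i` of `σ`. -/
lemma dict_two_dvd (γ : SL(2, ℤ)) {f g : ℍ → ℂ} (hf : MDiff f) (hg : MDiff g)
    (hf0 : ∃ z, f z ≠ 0) (hg0 : ∃ z, g z ≠ 0)
    (hinv : ∀ w : ℍ, f ((γ⁻¹ * ModularGroup.S * γ) • w) * g w =
      f w * g ((γ⁻¹ * ModularGroup.S * γ) • w)) :
    (2 : ℤ) ∣ dict_ord f (γ⁻¹ • UpperHalfPlane.I) - dict_ord g (γ⁻¹ • UpperHalfPlane.I) := by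
  set φ : ℍ → ℂ := fun τ => f (γ⁻¹ • τ) with hφ
  set ψ : ℍ → ℂ := fun τ => g (γ⁻¹ • τ) with hψ
  set ψ' : ℍ → ℂ := fun τ => ψ (ModularGroup.S • τ) with hψ'
  have hφd : MDiff φ := anE_mdiff_comp_smul hf γ⁻¹
  have hψd : MDiff ψ := anE_mdiff_comp_smul hg γ⁻¹
  have hψ'd : MDiff ψ' := anE_mdiff_comp_smul hψd ModularGroup.S
  have hφ0 : ∃ z, φ z ≠ 0 := dict_exists_ne_comp_smul hf0 γ⁻¹
  have hψ0 : ∃ z, ψ z ≠ 0 := dict_exists_ne_comp_smul hg0 γ⁻¹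
  have hψ'0 : ∃ z, ψ' z ≠ 0 := dict_exists_ne_comp_smul hψ0 ModularGroup.S
  have hrel : ∀ τ : ℍ, φ (ModularGroup.S • τ) * ψ τ = φ τ * ψ (ModularGroup.S • τ) := by
    intro τ
    have h := hinv (γ⁻¹ • τ)
    have e : (γ⁻¹ * ModularGroup.S * γ) • (γ⁻¹ • τ) = γ⁻¹ • ModularGroup.S • τ := by
      rw [← mul_smul, ← mul_smul]
      congr 1
      group
    rw [e] at h
    exact h
  have hH : MDiff (φ * ψ') := hφd.mul hψ'd
  have hinvH : ∀ τ : ℍ, (φ * ψ') (ModularGroup.S • τ) = (φ * ψ') τ := by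
    intro τ
    show φ (ModularGroup.S • τ) * ψ (ModularGroup.S • ModularGroup.S • τ) =
      φ τ * ψ (ModularGroup.S • τ)
    rw [dict_S_smul_S_smul]
    exact hrel τ
  have hH0 : ∃ z, (φ * ψ') z ≠ 0 := by
    by_contra h
    push Not at h
    have h1 := anE_ordAt_ne_top hφd hφ0 UpperHalfPlane.I
    have h2 := anE_ordAt_ne_top hψ'd hψ'0 UpperHalfPlane.I
    have h3 : ordAt (φ * ψ') UpperHalfPlane.I = ⊤ := by
      have : φ * ψ' = 0 := funext h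
      rw [this]
      exact anE_ordAt_zero _
    rw [anE_ordAt_mul hφd hψ'd] at h3
    rcases ENat.add_eq_top.mp h3 with h4 | h4
    · exact h1 h4
    · exact h2 h4
  have h1 := anE_even_ordAt_I hH hinvH (anE_ordAt_ne_top hH hH0 _)
  have h2 : ((ordAt (φ * ψ') UpperHalfPlane.I).toNat : ℤ) = dict_ord (φ * ψ') UpperHalfPlane.I :=
    rfl
  rw [h2, dict_ord_mul hφd hψ'd hφ0 hψ'0, hψ', dict_ord_comp_smul ψ, anE_S_smul_I, hφ, hψ,
    dict_ord_comp_smul f, dict_ord_comp_smul g] at h1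
  obtain ⟨t, ht⟩ := h1
  exact ⟨t - dict_ord g (γ⁻¹ • UpperHalfPlane.I), by linarith⟩

/-- If `f / g` is invariant under `σ = γ⁻¹ S T γ`, then `ord f - ord g` is divisible by `3` at
the fixed point `γ⁻¹ ρ` of `σ`. -/
lemma dict_three_dvd (γ : SL(2, ℤ)) {f g : ℍ → ℂ} (hf : MDiff f) (hg : MDiff g)
    (hf0 : ∃ z, f z ≠ 0) (hg0 : ∃ z, g z ≠ 0)
    (hinv : ∀ w : ℍ, f ((γ⁻¹ * (ModularGroup.S * ModularGroup.T) * γ) • w) * g w =
      f w * g ((γ⁻¹ * (ModularGroup.S * ModularGroup.T) * γ) • w)) :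
    (3 : ℤ) ∣ dict_ord f (γ⁻¹ • anE_rho) - dict_ord g (γ⁻¹ • anE_rho) := by
  set R : SL(2, ℤ) := ModularGroup.S * ModularGroup.T with hR
  set φ : ℍ → ℂ := fun τ => f (γ⁻¹ • τ) with hφ
  set ψ : ℍ → ℂ := fun τ => g (γ⁻¹ • τ) with hψ
  set ψ' : ℍ → ℂ := fun τ => ψ (R • τ) with hψ'
  set ψ'' : ℍ → ℂ := fun τ => ψ' (R • τ) with hψ''
  have hφd : MDiff φ := anE_mdiff_comp_smul hf γ⁻¹
  have hψd : MDiff ψ := anE_mdiff_comp_smul hg γ⁻¹
  have hψ'd : MDiff ψ' := anE_mdiff_comp_smul hψd R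
  have hψ''d : MDiff ψ'' := anE_mdiff_comp_smul hψ'd R
  have hφ0 : ∃ z, φ z ≠ 0 := dict_exists_ne_comp_smul hf0 γ⁻¹
  have hψ0 : ∃ z, ψ z ≠ 0 := dict_exists_ne_comp_smul hg0 γ⁻¹
  have hψ'0 : ∃ z, ψ' z ≠ 0 := dict_exists_ne_comp_smul hψ0 R
  have hψ''0 : ∃ z, ψ'' z ≠ 0 := dict_exists_ne_comp_smul hψ'0 R
  have hrel : ∀ τ : ℍ, φ (R • τ) * ψ τ = φ τ * ψ (R • τ) := by
    intro τ
    have h := hinv (γ⁻¹ • τ)
    have e : (γ⁻¹ * R * γ) • (γ⁻¹ • τ) = γ⁻¹ • R • τ := by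
      rw [← mul_smul, ← mul_smul]
      congr 1
      group
    rw [e] at h
    exact h
  have hH : MDiff (φ * ψ' * ψ'') := (hφd.mul hψ'd).mul hψ''d
  have hinvH : ∀ τ : ℍ, (φ * ψ' * ψ'') (R • τ) = (φ * ψ' * ψ'') τ := by
    intro τ
    show φ (R • τ) * ψ (R • R • τ) * ψ (R • R • R • τ) = φ τ * ψ (R • τ) * ψ (R • R • τ)
    rw [dict_ST_cube_smul]
    have := hrel τ
    linear_combination ψ (R • R • τ) * this
  have hφψ'0 : ∃ z, (φ * ψ') z ≠ 0 := by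
    by_contra h
    push Not at h
    have h1 := anE_ordAt_ne_top hφd hφ0 UpperHalfPlane.I
    have h2 := anE_ordAt_ne_top hψ'd hψ'0 UpperHalfPlane.I
    have h3 : ordAt (φ * ψ') UpperHalfPlane.I = ⊤ := by
      have : φ * ψ' = 0 := funext h
      rw [this]
      exact anE_ordAt_zero _
    rw [anE_ordAt_mul hφd hψ'd] at h3
    rcases ENat.add_eq_top.mp h3 with h4 | h4
    · exact h1 h4
    · exact h2 h4
  have hH0 : ∃ z, (φ * ψ' * ψ'') z ≠ 0 := by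
    by_contra h
    push Not at h
    have h1 := anE_ordAt_ne_top (hφd.mul hψ'd) hφψ'0 UpperHalfPlane.I
    have h2 := anE_ordAt_ne_top hψ''d hψ''0 UpperHalfPlane.I
    have h3 : ordAt (φ * ψ' * ψ'') UpperHalfPlane.I = ⊤ := by
      have : φ * ψ' * ψ'' = 0 := funext h
      rw [this]
      exact anE_ordAt_zero _
    rw [anE_ordAt_mul (hφd.mul hψ'd) hψ''d] at h3
    rcases ENat.add_eq_top.mp h3 with h4 | h4
    · exact h1 h4
    · exact h2 h4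
  have h1 := anE_three_dvd_ordAt_rho hH hinvH (anE_ordAt_ne_top hH hH0 _)
  have h2 : ((ordAt (φ * ψ' * ψ'') anE_rho).toNat : ℤ) = dict_ord (φ * ψ' * ψ'') anE_rho := rfl
  rw [h2, dict_ord_mul (hφd.mul hψ'd) hψ''d hφψ'0 hψ''0, dict_ord_mul hφd hψ'd hφ0 hψ'0,
    hψ'', dict_ord_comp_smul ψ', hψ', dict_ord_comp_smul ψ, anE_ST_smul_rho,
    dict_ord_comp_smul ψ, anE_ST_smul_rho, hφ, hψ,
    dict_ord_comp_smul f, dict_ord_comp_smul g] at h1
  obtain ⟨t, ht⟩ := h1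
  exact ⟨t - dict_ord g (γ⁻¹ • anE_rho), by linarith⟩

/-! ### Cusps -/

lemma dict_isCuspOrd_pow {N : ℕ} {F : ℍ → ℂ} {k : ℤ} (hF : IsCuspOrd N F k) (n : ℕ) :
    IsCuspOrd N (fun z => F z ^ n) (n * k) := by
  induction n with
  | zero =>
    have := anF_isCuspOrd_const N (c := 1) one_ne_zero
    simpa using this
  | succ n ih =>
    have h := anF_isCuspOrd_mul ih hF
    have e : ((n : ℤ) * k + k) = ((n + 1 : ℕ) : ℤ) * k := by push_cast; ring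
    rw [e] at h
    refine cast (congrArg (fun G => IsCuspOrd N G _) ?_) h
    funext z
    rw [pow_succ]

lemma dict_periodic_mul {F : ℍ → ℂ} {h : ℕ} (hper : ∀ z : ℍ, F ((h : ℝ) +ᵥ z) = F z) (m : ℕ)
    (z : ℍ) : F (((m * h : ℕ) : ℝ) +ᵥ z) = F z := by
  induction m with
  | zero => simp
  | succ m ih =>
    have e : (((m + 1) * h : ℕ) : ℝ) +ᵥ z = (h : ℝ) +ᵥ (((m * h : ℕ) : ℝ) +ᵥ z) := by
      rw [vadd_vadd]
      congr 1
      push_cast
      ring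
    rw [e, hper, ih]

lemma dict_moderateGrowth_of_bounded {F : ℍ → ℂ} (hb : IsBoundedAtImInfty F) :
    ModerateGrowth F := by
  refine ⟨0, ?_⟩
  have hb' : F =O[atImInfty] (1 : ℍ → ℝ) := hb
  refine hb'.congr_right (fun z => ?_)
  simp

lemma dict_slash_ne_zero {F : ℍ → ℂ} (k : ℤ) (γ : SL(2, ℤ)) (hF : ∃ z, F z ≠ 0) :
    ∃ z, (F ∣[k] γ) z ≠ 0 := by
  obtain ⟨z, hz⟩ := hF
  refine ⟨γ⁻¹ • z, ?_⟩
  rw [ModularForm.SL_slash_apply, smul_inv_smul]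
  exact mul_ne_zero hz (zpow_ne_zero _ (denom_ne_zero _ _))

section BridgeCusp

variable {N : ℕ} [NeZero N] {Θ₀ : ringA N →+* (ℍ → ℂ)} {π : ℂ →+ QBar}

/-- The divisibility at a cusp. -/
lemma dict_cusp_dvd (hΘ : IsBridge N Θ₀ π) {a b : ringA N} (ha : a ≠ 0) (hb : b ≠ 0)
    (k : ℤ) {f g : ℍ → ℂ} (hf : MDiff f) (hg : MDiff g) (hf0 : ∃ z, f z ≠ 0)
    (hg0 : ∃ z, g z ≠ 0) (n : ℕ) (hab : ∀ z, Θ₀ a z * g z ^ n = Θ₀ b z * f z ^ n)
    (γ : SL(2, ℤ)) (m h : ℕ) (hm : 0 < m) (hmh : m * h = N)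
    (hfper : ∀ z : ℍ, (f ∣[k] γ⁻¹) ((h : ℝ) +ᵥ z) = (f ∣[k] γ⁻¹) z)
    (hgper : ∀ z : ℍ, (g ∣[k] γ⁻¹) ((h : ℝ) +ᵥ z) = (g ∣[k] γ⁻¹) z)
    (hfb : IsBoundedAtImInfty (f ∣[k] γ⁻¹)) (hgb : IsBoundedAtImInfty (g ∣[k] γ⁻¹))
    {v : Place QBar (FunField N)}
    (hdiff : ∀ (a b : ringA N) (k l : ℤ), IsCuspOrd N (S24.translate (Θ₀ a) γ) k →
        IsCuspOrd N (S24.translate (Θ₀ b) γ) l →
          k - l = (m : ℤ) * v.ord ((a : FunField N) / (b : FunField N))) :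
    (n : ℤ) ∣ v.ord ((a : FunField N) / (b : FunField N)) := by
  have hm' : (0 : ℤ) < m := by exact_mod_cast hm
  have hf'd : MDiff (f ∣[k] γ⁻¹) := hf.slash k _
  have hg'd : MDiff (g ∣[k] γ⁻¹) := hg.slash k _
  have hfN : ∀ z : ℍ, (f ∣[k] γ⁻¹) ((N : ℝ) +ᵥ z) = (f ∣[k] γ⁻¹) z := by
    intro z
    have := dict_periodic_mul hfper m z
    rwa [hmh] at this
  have hgN : ∀ z : ℍ, (g ∣[k] γ⁻¹) ((N : ℝ) +ᵥ z) = (g ∣[k] γ⁻¹) z := by
    intro z
    have := dict_periodic_mul hgper m z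
    rwa [hmh] at this
  obtain ⟨kf, hkf⟩ := anF_exists_isCuspOrd hf'd hfN (dict_moderateGrowth_of_bounded hfb)
    (dict_slash_ne_zero k γ⁻¹ hf0)
  obtain ⟨kg, hkg⟩ := anF_exists_isCuspOrd hg'd hgN (dict_moderateGrowth_of_bounded hgb)
    (dict_slash_ne_zero k γ⁻¹ hg0)
  have hdf : (N : ℤ) ∣ kf * (h : ℤ) :=
    anF_dvd_of_periodic (h : ℤ) (fun z => by simpa using hfper z) hkf
  have hdg : (N : ℤ) ∣ kg * (h : ℤ) :=
    anF_dvd_of_periodic (h : ℤ) (fun z => by simpa using hgper z) hkg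
  have hh0 : (h : ℤ) ≠ 0 := by
    intro h0
    have : h = 0 := by exact_mod_cast h0
    rw [this, mul_zero] at hmh
    exact NeZero.ne N hmh.symm
  have hN : (N : ℤ) = (m : ℤ) * (h : ℤ) := by exact_mod_cast hmh.symm
  rw [hN] at hdf hdg
  obtain ⟨tf, htf⟩ := (mul_dvd_mul_iff_right hh0).mp hdf
  obtain ⟨tg, htg⟩ := (mul_dvd_mul_iff_right hh0).mp hdg
  obtain ⟨ka, hka⟩ := anF_exists_cuspOrd anB_growth hΘ a γ ha
  obtain ⟨kb, hkb⟩ := anF_exists_cuspOrd anB_growth hΘ b γ hb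
  have hid : (fun z => S24.translate (Θ₀ a) γ z * (g ∣[k] γ⁻¹) z ^ n) =
      (fun z => S24.translate (Θ₀ b) γ z * (f ∣[k] γ⁻¹) z ^ n) := by
    funext z
    have h1 := hab (γ⁻¹ • z)
    show Θ₀ a (γ⁻¹ • z) * (g ∣[k] γ⁻¹) z ^ n = Θ₀ b (γ⁻¹ • z) * (f ∣[k] γ⁻¹) z ^ n
    rw [ModularForm.SL_slash_apply, ModularForm.SL_slash_apply, mul_pow, mul_pow, ← mul_assoc,
      ← mul_assoc, h1]
  have h1 := anF_isCuspOrd_mul hka (dict_isCuspOrd_pow hkg n)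
  have h2 := anF_isCuspOrd_mul hkb (dict_isCuspOrd_pow hkf n)
  rw [hid] at h1
  have h3 := anF_isCuspOrd_unique h1 h2
  have h4 := hdiff a b ka kb hka hkb
  refine ⟨tf - tg, ?_⟩
  have h5 : (m : ℤ) * v.ord ((a : FunField N) / (b : FunField N)) =
      (m : ℤ) * ((n : ℤ) * (tf - tg)) := by
    rw [← h4]
    have : ka - kb = n * kf - n * kg := by linarith
    rw [this, htf, htg]
    ring
  exact mul_left_cancel₀ hm'.ne' h5

/-- **[DICT-DIV], functional form.**  Let `f, g` be holomorphic and not identically zero on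
`ℍ`, such that `f / g` is invariant under the elements of finite order of `Γ₀(N)`, such that
`f ∣[k] γ⁻¹` and `g ∣[k] γ⁻¹` are invariant under `z ↦ z + h` whenever `γ⁻¹ T^h γ ∈ Γ₀(N)`, and
such that all `f ∣[k] α`, `g ∣[k] α` are bounded at `i∞`.  If `a, b ∈ ringA N` satisfy
`Θ(a) g^n = Θ(b) f^n`, then the order of `a / b` at every place is divisible by `n`. -/
theorem dict_div (hΘ : IsBridge N Θ₀ π) (n : ℕ) (k : ℤ) {f g : ℍ → ℂ}
    (hf : MDiff f) (hg : MDiff g) (hf0 : ∃ z, f z ≠ 0) (hg0 : ∃ z, g z ≠ 0)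
    (hell : ∀ σ : SL(2, ℤ), σ ∈ Gamma0 N → σ ^ 12 = 1 →
      ∀ w : ℍ, f (σ • w) * g w = f w * g (σ • w))
    (hpar : ∀ (γ : SL(2, ℤ)) (h : ℕ), 0 < h → γ⁻¹ * ModularGroup.T ^ h * γ ∈ Gamma0 N →
      (∀ z : ℍ, (f ∣[k] γ⁻¹) ((h : ℝ) +ᵥ z) = (f ∣[k] γ⁻¹) z) ∧
        (∀ z : ℍ, (g ∣[k] γ⁻¹) ((h : ℝ) +ᵥ z) = (g ∣[k] γ⁻¹) z))
    (hfb : ∀ α : SL(2, ℤ), IsBoundedAtImInfty (f ∣[k] α))
    (hgb : ∀ α : SL(2, ℤ), IsBoundedAtImInfty (g ∣[k] α))
    {a b : ringA N} (ha : a ≠ 0) (hb : b ≠ 0)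
    (hab : ∀ z, Θ₀ a z * g z ^ n = Θ₀ b z * f z ^ n) (v : Place QBar (FunField N)) :
    (n : ℤ) ∣ v.ord ((a : FunField N) / (b : FunField N)) := by
  rcases diff_centreStatement QBar (FunField N) (jF N) (dc_jCoordinate N) v with ⟨c, hc⟩ | hc
  · -- a point
    obtain ⟨z, m, hm, -, -, hdiff, hcase⟩ := dict_point_cases hΘ v c hc
    have h1 := hdiff a b ha hb
    rw [dict_point_eq hΘ ha hb hf hg hf0 hg0 n hab z] at h1
    rcases hcase with h2 | ⟨h2, γ, rfl, hγ⟩ | ⟨h2, γ, rfl, hγ⟩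
    · subst h2
      refine ⟨dict_ord f z - dict_ord g z, ?_⟩
      have : ((1 : ℕ) : ℤ) = 1 := rfl
      rw [this, one_mul] at h1
      exact h1.symm
    · subst h2
      have hσ : (γ⁻¹ * ModularGroup.S * γ) ^ 12 = 1 := by
        have e : (γ⁻¹ * ModularGroup.S * γ) ^ 12 = γ⁻¹ * ModularGroup.S ^ 12 * γ := by
          rw [show γ⁻¹ * ModularGroup.S * γ = γ⁻¹ * ModularGroup.S * γ⁻¹⁻¹ by rw [inv_inv],
            conj_pow, inv_inv]
        rw [e]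
        have h4 : ModularGroup.S ^ 12 = 1 := by
          have h2 : ModularGroup.S ^ 2 = -1 := by
            rw [pow_two]
            ext i j
            fin_cases i <;> fin_cases j <;> simp [ModularGroup.S]
          have : ModularGroup.S ^ 12 = (ModularGroup.S ^ 2) ^ 6 := by rw [← pow_mul]
          rw [this, h2]
          exact Even.neg_one_pow ⟨3, rfl⟩
        rw [h4]
        group
      obtain ⟨t, ht⟩ := dict_two_dvd γ hf hg hf0 hg0 (hell _ hγ hσ)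
      refine ⟨t, ?_⟩
      rw [ht] at h1
      have h5 : (2 : ℤ) * v.ord ((a : FunField N) / (b : FunField N)) = 2 * ((n : ℤ) * t) := by
        have : ((2 : ℕ) : ℤ) = 2 := rfl
        rw [this] at h1
        linarith
      exact mul_left_cancel₀ two_ne_zero h5
    · subst h2
      have hσ : (γ⁻¹ * (ModularGroup.S * ModularGroup.T) * γ) ^ 12 = 1 := by
        have e : (γ⁻¹ * (ModularGroup.S * ModularGroup.T) * γ) ^ 12 =
            γ⁻¹ * (ModularGroup.S * ModularGroup.T) ^ 12 * γ := by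
          rw [show γ⁻¹ * (ModularGroup.S * ModularGroup.T) * γ =
            γ⁻¹ * (ModularGroup.S * ModularGroup.T) * γ⁻¹⁻¹ by rw [inv_inv],
            conj_pow, inv_inv]
        rw [e]
        have h4 : (ModularGroup.S * ModularGroup.T : SL(2, ℤ)) ^ 12 = 1 := by
          have h3 : (ModularGroup.S * ModularGroup.T : SL(2, ℤ)) ^ 3 = -1 := by
            rw [pow_succ, pow_two]
            ext i j
            fin_cases i <;> fin_cases j <;>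
              simp [ModularGroup.S, ModularGroup.T, Matrix.mul_apply, Fin.sum_univ_two]
          have : (ModularGroup.S * ModularGroup.T : SL(2, ℤ)) ^ 12 =
              ((ModularGroup.S * ModularGroup.T) ^ 3) ^ 4 := by rw [← pow_mul]
          rw [this, h3]
          exact Even.neg_one_pow ⟨2, rfl⟩
        rw [h4]
        group
      obtain ⟨t, ht⟩ := dict_three_dvd γ hf hg hf0 hg0 (hell _ hγ hσ)
      refine ⟨t, ?_⟩
      rw [ht] at h1
      have h5 : (3 : ℤ) * v.ord ((a : FunField N) / (b : FunField N)) = 3 * ((n : ℤ) * t) := by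
        have : ((3 : ℕ) : ℤ) = 3 := rfl
        rw [this] at h1
        linarith
      exact mul_left_cancel₀ three_ne_zero h5
  · -- a cusp
    obtain ⟨γ, m, h, hm, hh, hmh, hγ, -, hdiff⟩ := dict_cusp_cases hΘ v hc
    obtain ⟨hfper, hgper⟩ := hpar γ h hh hγ
    exact dict_cusp_dvd hΘ ha hb k hf hg hf0 hg0 n hab γ m h hm hmh hfper hgper
      (hfb _) (hgb _) hdiff

end BridgeCusp

end Fermat.Agent.S29.DictC
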