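/-
S29 [DICT-DIV], second form: the hypothesis on the elements of finite order is asked only for
the elements `σ ∈ Γ₀(N)` with `(tr σ)² ≤ 4`.  Owner: helper22.
-/
import Mathlib
import Fermat.Agent.S29.DictC.DictDiv

set_option autoImplicit false

noncomputable section

namespace Fermat.Agent.S29.DictC

open Fermat.Agent.S24
open AlgebraicCurve IntermediateField UpperHalfPlane CongruenceSubgroup Filter
open scoped MatrixGroups Manifold Topology ModularForm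

/-- The trace is invariant under conjugation. -/
lemma dict_trace_conj (γ σ : SL(2, ℤ)) :
    ((γ⁻¹ * σ * γ : SL(2, ℤ)) : Matrix (Fin 2) (Fin 2) ℤ).trace =
      (σ : Matrix (Fin 2) (Fin 2) ℤ).trace := by
  rw [Matrix.SpecialLinearGroup.coe_mul, Matrix.SpecialLinearGroup.coe_mul,
    Matrix.trace_mul_cycle, ← Matrix.SpecialLinearGroup.coe_mul, mul_inv_cancel,
    Matrix.SpecialLinearGroup.coe_one, one_mul]

lemma dict_trace_S : (ModularGroup.S : Matrix (Fin 2) (Fin 2) ℤ).trace = 0 := by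
  simp [ModularGroup.S, Matrix.trace_fin_two]

lemma dict_trace_ST :
    ((ModularGroup.S * ModularGroup.T : SL(2, ℤ)) : Matrix (Fin 2) (Fin 2) ℤ).trace = 1 := by
  simp [ModularGroup.S, ModularGroup.T, Matrix.trace_fin_two, Matrix.mul_apply,
    Fin.sum_univ_two]

lemma dict_trace_T_pow (h : ℕ) :
    ((ModularGroup.T ^ h : SL(2, ℤ)) : Matrix (Fin 2) (Fin 2) ℤ).trace = 2 := by
  have e : (ModularGroup.T ^ h : SL(2, ℤ)) = ModularGroup.T ^ (h : ℤ) := (zpow_natCast _ _).symm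
  rw [e, ModularGroup.coe_T_zpow]
  simp [Matrix.trace_fin_two]

lemma dict_trace_conj_S (γ : SL(2, ℤ)) :
    ((γ⁻¹ * ModularGroup.S * γ : SL(2, ℤ)) : Matrix (Fin 2) (Fin 2) ℤ).trace ^ 2 ≤ 4 := by
  rw [dict_trace_conj, dict_trace_S]
  norm_num

lemma dict_trace_conj_ST (γ : SL(2, ℤ)) :
    ((γ⁻¹ * (ModularGroup.S * ModularGroup.T) * γ : SL(2, ℤ)) :
      Matrix (Fin 2) (Fin 2) ℤ).trace ^ 2 ≤ 4 := by
  rw [dict_trace_conj, dict_trace_ST]
  norm_num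

lemma dict_trace_conj_T_pow (γ : SL(2, ℤ)) (h : ℕ) :
    ((γ⁻¹ * ModularGroup.T ^ h * γ : SL(2, ℤ)) : Matrix (Fin 2) (Fin 2) ℤ).trace ^ 2 ≤ 4 := by
  rw [dict_trace_conj, dict_trace_T_pow]
  norm_num

section Bridge

variable {N : ℕ} [NeZero N] {Θ₀ : ringA N →+* (ℍ → ℂ)} {π : ℂ →+ QBar}

/-- **[DICT-DIV], functional form with traces.**  As `dict_div`, with the invariance of
`f / g` asked for the elements `σ ∈ Γ₀(N)` with `(tr σ)² ≤ 4`. -/
theorem dict_div_tr (hΘ : IsBridge N Θ₀ π) (n : ℕ) (k : ℤ) {f g : ℍ → ℂ}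
    (hf : MDiff f) (hg : MDiff g) (hf0 : ∃ z, f z ≠ 0) (hg0 : ∃ z, g z ≠ 0)
    (hell : ∀ σ : SL(2, ℤ), σ ∈ Gamma0 N →
      (σ : Matrix (Fin 2) (Fin 2) ℤ).trace ^ 2 ≤ 4 →
        ∀ w : ℍ, f (σ • w) * g w = f w * g (σ • w))
    (hpar : ∀ (γ : SL(2, ℤ)) (h : ℕ), 0 < h → γ⁻¹ * ModularGroup.T ^ h * γ ∈ Gamma0 N →
      (∀ z : ℍ, (f ∣[k] γ⁻¹) ((h : ℝ) +ᵥ z) = (f ∣[k] γ⁻¹) z) ∧
        (∀ z : ℍ, (g ∣[k] γ⁻¹) ((h : ℝ) +ᵥ z) = (g ∣[k] γ⁻¹) z))
    (hfb : ∀ α : SL(2, ℤ), IsBoundedAtImInfty (f ∣[k] α))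
    (hgb : ∀ α : SL(2, ℤ), IsBoundedAtImInfty (g ∣[k] α))
    {a b : ringA N} (ha : a ≠ 0) (hb : b ≠ 0)
    (hab : ∀ z, Θ₀ a z * g z ^ n = Θ₀ b z * f z ^ n) (v : Place QBar (FunField N)) :
    (n : ℤ) ∣ v.ord ((a : FunField N) / (b : FunField N)) := by
  rcases diff_centreStatement QBar (FunField N) (jF N) (dc_jCoordinate N) v with ⟨c, hc⟩ | hc
  · -- a point
    obtain ⟨z, m, hm, -, -, hdiff, hcase⟩ := dict_point_cases hΘ v c hc
    have h1 := hdiff a b ha hb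
    rw [dict_point_eq hΘ ha hb hf hg hf0 hg0 n hab z] at h1
    rcases hcase with h2 | ⟨h2, γ, rfl, hγ⟩ | ⟨h2, γ, rfl, hγ⟩
    · subst h2
      refine ⟨dict_ord f z - dict_ord g z, ?_⟩
      have : ((1 : ℕ) : ℤ) = 1 := rfl
      rw [this, one_mul] at h1
      exact h1.symm
    · subst h2
      obtain ⟨t, ht⟩ := dict_two_dvd γ hf hg hf0 hg0 (hell _ hγ (dict_trace_conj_S γ))
      refine ⟨t, ?_⟩
      rw [ht] at h1
      have h5 : (2 : ℤ) * v.ord ((a : FunField N) / (b : FunField N)) = 2 * ((n : ℤ) * t) := by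
        have : ((2 : ℕ) : ℤ) = 2 := rfl
        rw [this] at h1
        linarith
      exact mul_left_cancel₀ two_ne_zero h5
    · subst h2
      obtain ⟨t, ht⟩ := dict_three_dvd γ hf hg hf0 hg0 (hell _ hγ (dict_trace_conj_ST γ))
      refine ⟨t, ?_⟩
      rw [ht] at h1
      have h5 : (3 : ℤ) * v.ord ((a : FunField N) / (b : FunField N)) = 3 * ((n : ℤ) * t) := by
        have : ((3 : ℕ) : ℤ) = 3 := rfl
        rw [this] at h1
        linarith
      exact mul_left_cancel₀ three_ne_zero h5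
  · -- a cusp
    obtain ⟨γ, m, h, hm, hh, hmh, hγ, -, hdiff⟩ := dict_cusp_cases hΘ v hc
    obtain ⟨hfper, hgper⟩ := hpar γ h hh hγ
    exact dict_cusp_dvd hΘ ha hb k hf hg hf0 hg0 n hab γ m h hm hmh hfper hgper
      (hfb _) (hgb _) hdiff

end Bridge

end Fermat.Agent.S29.DictC
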