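-- S29 [DICT]: port of Fermat/Agent/S24/DescentCP.lean to the constant field ℂ (see DictC/Defs.lean).
import Mathlib
import Fermat.Agent.S24.ANDefs
import Fermat.Agent.S29.DictC.Defs
import Fermat.Agent.S29.DictC.RingAInt
import Fermat.Agent.S29.DictC.PiPoly

/-!
# S24 (AN-D): descent of the characteristic equation

`anD_descent_charPoly`: the characteristic equation of `Θ₀ a` over `ℂ[j]` descends to an
equation for `a` over `Q̄[j]` inside `ringA N`, with coefficients `anD_piPoly π (P k)`.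
-/

set_option autoImplicit false

open UpperHalfPlane Polynomial
open scoped MatrixGroups

noncomputable section

namespace Fermat.Agent.S29.DictC

open Fermat.Agent.S24

variable {N : ℕ} {Θ₀ : ringA N →+* (ℍ → ℂ)} {π : ℂ →+ QBar}

/-- (SA2) Descent of the characteristic equation. -/
theorem anD_descent_charPoly (hΘ : IsBridge N Θ₀ π) (a : ringA N) (n : ℕ) (P : ℕ → ℂ[X])
    (h : ∀ z : ℍ, ∑ k ∈ Finset.range (n + 1),
      (-1) ^ k * ((P k).eval (jfun z) * Θ₀ a z ^ (n - k)) = 0) :
    ∑ k ∈ Finset.range (n + 1),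
      (-1) ^ k * (Polynomial.aeval (jA N) (anD_piPoly π (P k)) * a ^ (n - k)) = 0 := by
  have h1 : ∀ z : ℍ, ∑ k ∈ Finset.range (n + 1),
      (Polynomial.C ((-1 : ℂ) ^ k) * P k).eval (jfun z) * Θ₀ (a ^ (n - k)) z = 0 := by
    intro z
    rw [← h z]
    refine Finset.sum_congr rfl fun k _ => ?_
    rw [Polynomial.eval_mul, Polynomial.eval_C, map_pow, Pi.pow_apply]
    ring
  have h2 := anD_descent_poly hΘ (Finset.range (n + 1))
    (fun k => Polynomial.C ((-1 : ℂ) ^ k) * P k) (fun k => a ^ (n - k)) h1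
  rw [← h2]
  refine Finset.sum_congr rfl fun k _ => ?_
  rw [anD_piPoly_neg_one_pow_mul hΘ, map_mul, Polynomial.aeval_C, map_pow, map_neg, map_one]
  ring

/-- The same in the function field. -/
theorem anD_descent_charPoly_coe (hΘ : IsBridge N Θ₀ π) (a : ringA N) (n : ℕ) (P : ℕ → ℂ[X])
    (h : ∀ z : ℍ, ∑ k ∈ Finset.range (n + 1),
      (-1) ^ k * ((P k).eval (jfun z) * Θ₀ a z ^ (n - k)) = 0) :
    ∑ k ∈ Finset.range (n + 1),
      (-1) ^ k * (Polynomial.aeval (jF N) (anD_piPoly π (P k)) * (a : FunField N) ^ (n - k)) =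
        0 := by
  have h2 := congrArg (fun x : ringA N => (x : FunField N)) (anD_descent_charPoly hΘ a n P h)
  simp only [ZeroMemClass.coe_zero] at h2
  rw [← h2]
  push_cast
  refine Finset.sum_congr rfl fun k _ => ?_
  congr 2

end Fermat.Agent.S29.DictC

end
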